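import Mathlib.LinearAlgebra.Eigenspace.Triangularizable
import Mathlib.RingTheory.Ideal.Maximal
import Mathlib.Analysis.Complex.Polynomial.Basic
import Mathlib.Algebra.Algebra.Subalgebra.Basic

/-!
Common eigenvectors of a commutative ring of operators, with a prescribed prime above the kernel
of the character.
-/

set_option autoImplicit false

noncomputable section

open Module

namespace Fermat.Agent.Hecke

variable {R : Type*} [CommRing R] {V : Type*} [AddCommGroup V] [Module ℂ V]

/-- In a nonzero finite-dimensional subspace stable under a commuting family there is a common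
eigenvector. -/
theorem exists_common_eigenvector [FiniteDimensional ℂ V] (ρ : R →+* Module.End ℂ V) :
    ∀ (d : ℕ) (W : Submodule ℂ V), finrank ℂ W = d → W ≠ ⊥ →
      (∀ t : R, ∀ w ∈ W, ρ t w ∈ W) →
      ∃ v ∈ W, v ≠ 0 ∧ ∀ t : R, ∃ c : ℂ, ρ t v = c • v := by
  intro d
  induction d using Nat.strong_induction_on with
  | _ d IH =>
    intro W hd hW hstab
    by_cases hall : ∀ t : R, ∃ c : ℂ, ∀ w ∈ W, ρ t w = c • w
    · obtain ⟨v, hv, hv0⟩ := Submodule.exists_mem_ne_zero_of_ne_bot hW
      exact ⟨v, hv, hv0, fun t => (hall t).imp fun c hc => hc v hv⟩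
    · push Not at hall
      obtain ⟨t, ht⟩ := hall
      haveI : Nontrivial W := Submodule.nontrivial_iff_ne_bot.mpr hW
      obtain ⟨μ, hμ⟩ := Module.End.exists_eigenvalue ((ρ t).restrict (hstab t))
      obtain ⟨w, hw⟩ := hμ.exists_hasEigenvector
      let W' : Submodule ℂ V := W ⊓ (ρ t).eigenspace μ
      have hwW' : (w : V) ∈ W' := by
        refine ⟨w.2, Module.End.mem_eigenspace_iff.mpr ?_⟩
        have := congrArg Subtype.val hw.apply_eq_smul
        exact this
      have hW' : W' ≠ ⊥ := by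
        intro h0
        rw [h0, Submodule.mem_bot] at hwW'
        exact hw.2 (Subtype.ext hwW')
      have hlt : W' < W := by
        refine lt_of_le_of_ne inf_le_left fun h => ?_
        obtain ⟨w₀, hw₀, hne⟩ := ht μ
        rw [← h] at hw₀
        exact hne (Module.End.mem_eigenspace_iff.mp hw₀.2)
      have hstab' : ∀ s : R, ∀ x ∈ W', ρ s x ∈ W' := by
        intro s x hx
        refine ⟨hstab s x hx.1, Module.End.mem_eigenspace_iff.mpr ?_⟩
        rw [← Module.End.mul_apply, ← map_mul, mul_comm, map_mul, Module.End.mul_apply,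
          Module.End.mem_eigenspace_iff.mp hx.2, map_smul]
      obtain ⟨v, hv, hv0, hve⟩ :=
        IH _ (hd ▸ Submodule.finrank_lt_finrank_of_lt hlt) W' rfl hW' hstab'
      exact ⟨v, hv.1, hv0, hve⟩

/-- A common eigenvector gives a character. -/
theorem exists_character (ρ : R →+* Module.End ℂ V) {v : V} (hv : v ≠ 0)
    (h : ∀ t : R, ∃ c : ℂ, ρ t v = c • v) :
    ∃ χ : R →+* ℂ, ∀ t, ρ t v = χ t • v := by
  choose c hc using h
  have inj : ∀ a b : ℂ, a • v = b • v → a = b := fun a b hab =>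
    smul_left_injective ℂ hv hab
  refine ⟨
    { toFun := c
      map_one' := inj _ _ (by rw [← hc, map_one, one_smul]; rfl)
      map_zero' := inj _ _ (by rw [← hc, map_zero, zero_smul]; rfl)
      map_add' := fun s t => inj _ _ (by rw [← hc, map_add, add_smul, LinearMap.add_apply, hc, hc])
      map_mul' := fun s t => inj _ _ (by
        rw [← hc, map_mul, Module.End.mul_apply, hc, map_smul, hc, smul_smul, mul_comm (c t)]) },
    hc⟩

/-- If a commutative ring acts faithfully (off a prime `𝔪`) on a finite dimensional space, some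
eigencharacter has kernel inside `𝔪`. -/
theorem exists_eigenvector_ker_le [FiniteDimensional ℂ V] (ρ : R →+* Module.End ℂ V)
    (hρ : Function.Injective ρ) (𝔪 : Ideal R) [h𝔪 : 𝔪.IsPrime] :
    ∃ v : V, v ≠ 0 ∧ ∃ χ : R →+* ℂ, (∀ t, ρ t v = χ t • v) ∧ RingHom.ker χ ≤ 𝔪 := by
  suffices key : ∀ (d : ℕ) (W : Submodule ℂ V), finrank ℂ W = d →
      (∀ t : R, ∀ w ∈ W, ρ t w ∈ W) → (∀ t, t ∉ 𝔪 → ∃ w ∈ W, ρ t w ≠ 0) →
      ∃ v : V, v ≠ 0 ∧ ∃ χ : R →+* ℂ, (∀ t, ρ t v = χ t • v) ∧ RingHom.ker χ ≤ 𝔪 by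
    refine key _ ⊤ rfl (fun _ _ _ => Submodule.mem_top) fun t ht => ?_
    by_contra hzero
    push Not at hzero
    have : t = 0 := hρ (by
      rw [map_zero]
      exact LinearMap.ext fun w => hzero w Submodule.mem_top)
    exact ht (this ▸ 𝔪.zero_mem)
  intro d
  induction d using Nat.strong_induction_on with
  | _ d IH =>
    intro W hd hstab hsep
    have hW : W ≠ ⊥ := by
      intro h0
      obtain ⟨w, hw, hne⟩ := hsep 1 ((Ideal.ne_top_iff_one 𝔪).mp h𝔪.ne_top)
      rw [h0, Submodule.mem_bot] at hw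
      exact hne (by rw [hw, map_zero])
    obtain ⟨v, hvW, hv0, hve⟩ := exists_common_eigenvector ρ _ W rfl hW hstab
    obtain ⟨χ, hχ⟩ := exists_character ρ hv0 hve
    by_cases hle : RingHom.ker χ ≤ 𝔪
    · exact ⟨v, hv0, χ, hχ, hle⟩
    obtain ⟨x, hxker, hx⟩ := SetLike.not_le_iff_exists.mp hle
    let W' : Submodule ℂ V := W.map (ρ x)
    have hle' : W' ≤ W := by
      rintro _ ⟨w, hw, rfl⟩
      exact hstab x w hw
    have hlt : W' < W := by
      refine lt_of_le_of_ne hle' fun h => ?_
      have hsurj : Function.Surjective ((ρ x).restrict (hstab x)) := by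
        intro y
        have hy : (y : V) ∈ W' := h.symm ▸ y.2
        obtain ⟨w, hw, hwy⟩ := hy
        exact ⟨⟨w, hw⟩, Subtype.ext hwy⟩
      have hinj := LinearMap.injective_iff_surjective.mpr hsurj
      have h0 : ((ρ x).restrict (hstab x)) ⟨v, hvW⟩ = 0 := by
        refine Subtype.ext ?_
        show ρ x v = 0
        rw [hχ, RingHom.mem_ker.mp hxker, zero_smul]
      exact hv0 (congrArg Subtype.val (hinj (h0.trans (map_zero _).symm)))
    refine IH _ (hd ▸ Submodule.finrank_lt_finrank_of_lt hlt) W' rfl ?_ ?_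
    · rintro t _ ⟨w, hw, rfl⟩
      refine ⟨ρ t w, hstab t w hw, ?_⟩
      rw [← Module.End.mul_apply, ← map_mul, mul_comm, map_mul, Module.End.mul_apply]
    · intro t ht
      obtain ⟨w, hw, hne⟩ := hsep (t * x) (fun h => (h𝔪.mem_or_mem h).elim ht hx)
      refine ⟨ρ x w, ⟨w, hw, rfl⟩, ?_⟩
      rwa [map_mul, Module.End.mul_apply] at hne

end Fermat.Agent.Hecke
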