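import Mathlib.FieldTheory.IsAlgClosed.Classification
import Mathlib.FieldTheory.IsAlgClosed.AlgebraicClosure
import Mathlib.FieldTheory.Galois.Infinite
import Mathlib.FieldTheory.AlgebraicClosure
import Mathlib.Analysis.Complex.Polynomial.Basic

/-!
A complex number fixed by every field automorphism of `ℂ` is rational.
-/

set_option autoImplicit false

noncomputable section

namespace Fermat.Agent.Hecke

local notation "ℚbar" => algebraicClosure ℚ ℂ

/-- An automorphism of a polynomial ring over `ℚbar` on a transcendence basis extends to `ℂ`. -/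
theorem exists_complexAut_of_polyAut {ι : Type} (v : ι → ℂ) (hv : IsTranscendenceBasis ℚbar v)
    (e : MvPolynomial ι ℚbar ≃+* MvPolynomial ι ℚbar) :
    ∃ σ : ℂ ≃+* ℂ, ∀ p : MvPolynomial ι ℚbar,
      σ (MvPolynomial.aeval v p) = MvPolynomial.aeval v (e p) := by
  let A := Algebra.adjoin ℚbar (Set.range v)
  haveI : IsAlgClosure A ℂ := IsAlgClosed.isAlgClosure_of_transcendence_basis v hv
  let φ : MvPolynomial ι ℚbar ≃ₐ[ℚbar] A := hv.1.aevalEquiv
  refine ⟨IsAlgClosure.equivOfEquiv ℂ ℂ
    (φ.symm.toRingEquiv.trans (e.trans φ.toRingEquiv)), fun p => ?_⟩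
  have h := IsAlgClosure.equivOfEquiv_algebraMap ℂ ℂ
    (φ.symm.toRingEquiv.trans (e.trans φ.toRingEquiv)) (φ p)
  rw [show algebraMap A ℂ (φ p) = MvPolynomial.aeval v p from hv.1.algebraMap_aevalEquiv p] at h
  rw [h]
  show algebraMap A ℂ (φ (e (φ.symm (φ p)))) = _
  rw [AlgEquiv.symm_apply_apply]
  exact hv.1.algebraMap_aevalEquiv (e p)

theorem exists_rat_of_fixed {x : ℂ} (h : ∀ σ : ℂ ≃+* ℂ, σ x = x) : ∃ r : ℚ, (r : ℂ) = x := by
  classical
  by_cases hx : IsAlgebraic ℚ x
  · haveI : Algebra.IsAlgebraic ℚ ℚbar := algebraicClosure.isAlgebraic ℚ ℂ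
    haveI : IsAlgClosure ℚ ℚbar := algebraicClosure.isAlgClosure ℚ ℂ
    haveI : IsGalois ℚ ℚbar := inferInstance
    let xb : ℚbar := ⟨x, (mem_algebraicClosure_iff').mpr hx.isIntegral⟩
    have hfix : xb ∈ (⊥ : IntermediateField ℚ ℚbar) := by
      rw [InfiniteGalois.mem_bot_iff_fixed]
      intro τ
      obtain ⟨s, hs⟩ := exists_isTranscendenceBasis ℚbar ℂ
      obtain ⟨σ, hσ⟩ := exists_complexAut_of_polyAut _ hs
        (MvPolynomial.mapEquiv (↥s) τ.toRingEquiv)
      have h1 := hσ (MvPolynomial.C xb)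
      rw [MvPolynomial.aeval_C] at h1
      have h2 : MvPolynomial.mapEquiv (↥s) τ.toRingEquiv (MvPolynomial.C xb) =
          MvPolynomial.C (τ xb) := MvPolynomial.map_C _ _
      rw [h2, MvPolynomial.aeval_C] at h1
      exact Subtype.ext (h1.symm.trans (h σ))
    obtain ⟨r, hr⟩ := IntermediateField.mem_bot.mp hfix
    exact ⟨r, by simpa using congrArg Subtype.val hr⟩
  · exfalso
    have hx' : Transcendental ℚbar x := fun h' =>
      haveI : Algebra.IsAlgebraic ℚ ℚbar := algebraicClosure.isAlgebraic ℚ ℂ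
      hx (IsAlgebraic.restrictScalars ℚ h')
    have hind : AlgebraicIndepOn ℚbar id ({x} : Set ℂ) :=
      algebraicIndependent_unique_type_iff.mpr hx'
    obtain ⟨s, hxs, hs⟩ := exists_isTranscendenceBasis_superset hind
    let i : s := ⟨x, hxs rfl⟩
    let f : MvPolynomial s ℚbar →ₐ[ℚbar] MvPolynomial s ℚbar :=
      MvPolynomial.aeval fun j => if j = i then -MvPolynomial.X j else MvPolynomial.X j
    have hff : f.comp f = AlgHom.id ℚbar _ := by
      refine MvPolynomial.algHom_ext fun j => ?_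
      rw [AlgHom.comp_apply, AlgHom.id_apply]
      simp only [f, MvPolynomial.aeval_X]
      by_cases hj : j = i
      · simp only [if_pos hj, map_neg, MvPolynomial.aeval_X, neg_neg]
      · simp only [if_neg hj, MvPolynomial.aeval_X]
    obtain ⟨σ, hσ⟩ := exists_complexAut_of_polyAut _ hs (AlgEquiv.ofAlgHom f f hff hff).toRingEquiv
    have h1 := hσ (MvPolynomial.X i)
    rw [MvPolynomial.aeval_X] at h1
    have h2 : (AlgEquiv.ofAlgHom f f hff hff).toRingEquiv (MvPolynomial.X i) =
        -MvPolynomial.X i := by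
      show f (MvPolynomial.X i) = _
      simp [f]
    rw [h2, map_neg, MvPolynomial.aeval_X, h] at h1
    have hx0 : x = 0 := by linear_combination h1 / 2
    exact hx (hx0 ▸ isAlgebraic_zero)

end Fermat.Agent.Hecke
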