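import Fermat.Agent.Hecke.QCoeff
import Fermat.Prelude.Thm_CuspForm_intLattice_fg
import Fermat.Prelude.Thm_CuspForm_mem_intLattice_of_mem_heckeAlgebra

/-!
Consequences of an integral structure: finite dimensionality and finiteness of the Hecke algebra.
-/

set_option autoImplicit false

noncomputable section

open CongruenceSubgroup ModularFormClass

namespace Fermat.Agent.Hecke

variable {N : ℕ} {k : ℤ}

/-- The forms with integral coefficients, as a submodule. -/
def integralForms (N : ℕ) (k : ℤ) : Submodule ℤ (CuspForm (Gamma0 N) k) where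
  carrier := {f | ∀ n : ℕ, ∃ m : ℤ, qCoeff ⇑f n = (m : ℂ)}
  add_mem' {f g} hf hg n := by
    obtain ⟨a, ha⟩ := hf n
    obtain ⟨b, hb⟩ := hg n
    exact ⟨a + b, by rw [qCoeff_add, ha, hb]; push_cast; ring⟩
  zero_mem' n := ⟨0, by rw [qCoeff_zero_form]; simp⟩
  smul_mem' c {f} hf n := by
    obtain ⟨a, ha⟩ := hf n
    exact ⟨c * a, by rw [qCoeff_intCast_smul, ha]; push_cast; ring⟩

theorem intLattice_eq_integralForms (N : ℕ) (k : ℤ) :
    CuspForm.intLattice N k = integralForms N k := by
  rw [CuspForm.intLattice]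
  exact Submodule.span_eq (integralForms N k)

theorem mem_intLattice_iff {f : CuspForm (Gamma0 N) k} :
    f ∈ CuspForm.intLattice N k ↔ ∀ n : ℕ, ∃ m : ℤ, qCoeff ⇑f n = (m : ℂ) := by
  rw [intLattice_eq_integralForms]
  rfl

theorem finiteDimensional_of_hasIntegralStructure [NeZero N]
    (h : CuspForm.HasIntegralStructure N k) : FiniteDimensional ℂ (CuspForm (Gamma0 N) k) := by
  obtain ⟨s, hs⟩ := CuspForm.intLattice_fg N k
  have h' : Submodule.span ℂ (CuspForm.intLattice N k : Set (CuspForm (Gamma0 N) k)) = ⊤ := h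
  have hle : (⊤ : Submodule ℂ (CuspForm (Gamma0 N) k)) ≤
      Submodule.span ℂ (s : Set (CuspForm (Gamma0 N) k)) := by
    rw [← h', ← hs, Submodule.span_span_of_tower]
  exact ⟨⟨s, eq_top_iff.mpr hle⟩⟩

theorem moduleFinite_heckeAlgebra_of_hasIntegralStructure [NeZero N] (hk : 1 ≤ k)
    (h : CuspForm.HasIntegralStructure N k) (S : Set ℕ) :
    Module.Finite ℤ (CuspForm.heckeAlgebra N k S) := by
  let L := CuspForm.intLattice N k
  haveI : Module.Finite ℤ L := Module.Finite.iff_fg.mpr (CuspForm.intLattice_fg N k)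
  haveI : IsAddTorsionFree (CuspForm (Gamma0 N) k) := .of_isTorsionFree ℂ _
  haveI : Module.Free ℤ L := Module.free_of_finite_type_torsion_free'
  let Φ : CuspForm.heckeAlgebra N k S →ₗ[ℤ] Module.End ℤ L :=
    { toFun := fun t => LinearMap.restrict
        (LinearMap.restrictScalars ℤ (t : Module.End ℂ (CuspForm (Gamma0 N) k)))
        (fun _ hf => CuspForm.mem_intLattice_of_mem_heckeAlgebra hk t.2 hf)
      map_add' := fun _ _ => LinearMap.ext fun _ => Subtype.ext rfl
      map_smul' := fun _ _ => LinearMap.ext fun _ => Subtype.ext rfl }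
  refine Module.Finite.of_injective Φ fun s t hst => Subtype.ext (LinearMap.ext_on h fun f hf => ?_)
  exact congrArg Subtype.val (LinearMap.congr_fun hst ⟨f, hf⟩)

end Fermat.Agent.Hecke
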