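import Fermat.Agent.Hecke.Conjugate
import Fermat.Agent.Hecke.ComplexAut
import Fermat.Agent.Hecke.LatticeFinite
import Mathlib.RingTheory.PowerSeries.Ideal
import Mathlib.RingTheory.IntegralClosure.IntegrallyClosed

/-!
An integral structure on cusp forms for `Gamma0 N` in every weight.
-/

set_option autoImplicit false

noncomputable section

open UpperHalfPlane Function ModularForm CongruenceSubgroup ModularFormClass
open scoped MatrixGroups Manifold

namespace Fermat.Agent.Hecke

variable {N : ℕ} [NeZero N] {k : ℤ}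

/-- A cusp form as a member of `qFunctions`. -/
def cuspToQ (f : CuspForm (Gamma0 N) k) : qFunctions :=
  ⟨⇑f, coe_mem_qFunctions (CongruenceSubgroup.one_mem_strictPeriods_Gamma0 N) f⟩

omit [NeZero N] in
theorem cuspToQ_mem (f : CuspForm (Gamma0 N) k) : cuspToQ f ∈ levelN N k :=
  ⟨ModularFormClass.modularForm f, rfl⟩

theorem cuspToQ_zero_slash (f : CuspForm (Gamma0 N) k) (δ : SL(2, ℤ)) :
    IsZeroAtImInfty ((cuspToQ f : ℍ → ℂ) ∣[k] δ) :=
  CuspFormClass.zero_at_infty_slash f δ

omit [NeZero N] in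
theorem coeff_qExp_cuspToQ (f : CuspForm (Gamma0 N) k) (n : ℕ) :
    (qExp (cuspToQ f)).coeff n = qCoeff ⇑f n := rfl

/-- Cusp forms with rational coefficients. -/
def IsRationalForm (f : CuspForm (Gamma0 N) k) : Prop := ∀ n, ∃ r : ℚ, qCoeff ⇑f n = (r : ℂ)

/-- Every cusp form of positive even weight has a conjugate under an endomorphism of `ℂ`. -/
theorem exists_cuspForm_conjugate {k : ℕ} (hk : Even k) (σ : ℂ →+* ℂ)
    (f : CuspForm (Gamma0 N) k) :
    ∃ g : CuspForm (Gamma0 N) k, ∀ n, qCoeff ⇑g n = σ (qCoeff ⇑f n) := by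
  obtain ⟨G, hG, hG0, hGq⟩ := exists_conjugate σ hk (cuspToQ_mem f) (cuspToQ_zero_slash f)
  refine ⟨
    { toFun := G
      slash_action_eq' := fun _ ⟨γ, hγ, hg⟩ => hg ▸ levelN_slash hG hγ
      holo' := G.2.2.1
      zero_at_cusps' := fun {c} hc => by
        rw [Subgroup.IsArithmetic.isCusp_iff_isCusp_SL2Z] at hc
        rw [OnePoint.isZeroAt_iff_forall_SL2Z hc]
        exact fun δ _ => hG0 δ }, fun n => ?_⟩
  have := congrArg (PowerSeries.coeff n) hGq
  rw [PowerSeries.coeff_map] at this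
  exact this

theorem eq_zero_of_low_coeff (f : CuspForm (Gamma0 N) k)
    (h : ∀ n : ℕ, n ≤ (k * (Gamma0 N).index).toNat / 12 → qCoeff ⇑f n = 0) : f = 0 :=
  DFunLike.coe_injective (congrArg Subtype.val (sturm_levelN (cuspToQ_mem f) h) :)

/-- Cusp forms of even weight are spanned by those with rational coefficients. -/
theorem rationalForms_span {k : ℕ} (hk : Even k) :
    Submodule.span ℂ {f : CuspForm (Gamma0 N) k | IsRationalForm f} = ⊤ := by
  classical
  set b := ((k : ℤ) * (Gamma0 N).index).toNat / 12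
  let supp : CuspForm (Gamma0 N) k → Finset ℕ := fun f =>
    (Finset.range (b + 1)).filter fun i => qCoeff ⇑f i ≠ 0
  have hsupp : ∀ (f : CuspForm (Gamma0 N) k) i, i ∈ supp f ↔ i ≤ b ∧ qCoeff ⇑f i ≠ 0 := fun f i => by
    simp [supp, Nat.lt_succ_iff]
  have hzero : ∀ f : CuspForm (Gamma0 N) k, supp f = ∅ → f = 0 := fun f hf =>
    eq_zero_of_low_coeff f fun n hn => by
      by_contra hne
      have := (hsupp f n).mpr ⟨hn, hne⟩
      simp [hf] at this
  rw [eq_top_iff]
  intro f hf_top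
  clear hf_top
  induction hm : (supp f).card using Nat.strong_induction_on generalizing f with
  | _ m IH =>
    by_cases hf : f = 0
    · rw [hf]; exact zero_mem _
    -- a nonzero form of minimal support inside the support of `f`
    have hex : ∃ c, ∃ g : CuspForm (Gamma0 N) k, g ≠ 0 ∧ supp g ⊆ supp f ∧ (supp g).card = c :=
      ⟨_, f, hf, subset_rfl, rfl⟩
    obtain ⟨g, hg0, hgs, hgc⟩ := Nat.find_spec hex
    obtain ⟨i, hi⟩ := Finset.nonempty_iff_ne_empty.mpr fun h => hg0 (hzero g h)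
    obtain ⟨hib, hgi⟩ := (hsupp g i).mp hi
    set g' := (qCoeff ⇑g i)⁻¹ • g with hg'def
    have hg'i : qCoeff ⇑g' i = 1 := by rw [hg'def, qCoeff_smul, inv_mul_cancel₀ hgi]
    have hsub : ∀ n, qCoeff ⇑g' n ≠ 0 → qCoeff ⇑g n ≠ 0 := fun n hn h0 =>
      hn (by rw [hg'def, qCoeff_smul, h0, mul_zero])
    have hrat : IsRationalForm g' := by
      intro n
      refine (exists_rat_of_fixed fun σ => ?_).imp fun r hr => hr.symm
      obtain ⟨u, hu⟩ := exists_cuspForm_conjugate hk σ.toRingHom g'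
      suffices u - g' = 0 by
        rw [sub_eq_zero] at this
        have := hu n
        rw [‹u = g'›] at this
        exact this.symm
      by_contra hne
      have hss : supp (u - g') ⊆ (supp g).erase i := by
        intro l hl
        obtain ⟨hlb, hl0⟩ := (hsupp _ l).mp hl
        rw [qCoeff_sub, hu] at hl0
        refine Finset.mem_erase.mpr ⟨fun hli => hl0 ?_, (hsupp g l).mpr ⟨hlb, hsub l fun h0 => hl0 ?_⟩⟩
        · rw [hli, hg'i]; simp
        · rw [h0]; simp
      have hlt : (supp (u - g')).card < Nat.find hex := by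
        rw [← hgc]
        exact lt_of_le_of_lt (Finset.card_le_card hss) (Finset.card_erase_lt_of_mem hi)
      exact Nat.find_min hex hlt
        ⟨u - g', hne, (hss.trans (Finset.erase_subset _ _)).trans hgs, rfl⟩
    set f' := f - qCoeff ⇑f i • g' with hf'def
    have hlt : (supp f').card < m := by
      rw [← hm]
      refine lt_of_le_of_lt (Finset.card_le_card (fun l hl => ?_))
        (Finset.card_erase_lt_of_mem (hgs hi))
      obtain ⟨hlb, hl0⟩ := (hsupp _ l).mp hl
      rw [hf'def, qCoeff_sub, qCoeff_smul] at hl0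
      refine Finset.mem_erase.mpr ⟨fun hli => hl0 (by rw [hli, hg'i]; ring), ?_⟩
      by_contra hnf
      have hfl : qCoeff ⇑f l = 0 := by
        by_contra hne
        exact hnf ((hsupp f l).mpr ⟨hlb, hne⟩)
      have hgl : qCoeff ⇑g' l = 0 := by
        by_contra hne
        exact hnf (hgs ((hsupp g l).mpr ⟨hlb, hsub l hne⟩))
      exact hl0 (by rw [hfl, hgl]; ring)
    have := IH _ hlt (f := f') rfl
    rw [show f = f' + qCoeff ⇑f i • g' by rw [hf'def]; abel]
    exact add_mem this (Submodule.smul_mem _ _ (Submodule.subset_span hrat))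

/-- An additive map commuting with rational scalars, from a dual vector. -/
theorem exists_ratProjection {c : ℂ} (hc : c ≠ 0) :
    ∃ φ : ℂ →+ ℂ, φ c = 1 ∧ (∀ x, ∃ r : ℚ, φ x = (r : ℂ)) ∧
      ∀ (x : ℂ) (r : ℚ), φ (x * r) = φ x * r := by
  obtain ⟨ψ, hψ⟩ : ∃ ψ : Module.Dual ℚ ℂ, ψ c ≠ 0 := by
    by_contra h
    push Not at h
    exact hc ((Module.forall_dual_apply_eq_zero_iff ℚ c).mp h)
  let π : ℂ →ₗ[ℚ] ℚ := (ψ c)⁻¹ • ψ
  refine ⟨(Rat.castHom ℂ).toAddMonoidHom.comp π.toAddMonoidHom, ?_, fun x => ⟨π x, rfl⟩,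
    fun x r => ?_⟩
  · simp [π, inv_mul_cancel₀ hψ]
  · show ((π (x * r) : ℚ) : ℂ) = (π x : ℂ) * r
    rw [show x * (r : ℂ) = r • x by rw [Rat.smul_def, mul_comm], map_smul, smul_eq_mul]
    push_cast
    ring

theorem mapCoeff_mul_rational {φ : ℂ →+ ℂ} (hφ : ∀ (x : ℂ) (r : ℚ), φ (x * r) = φ x * r)
    (P : PowerSeries ℂ) {Q : PowerSeries ℂ} (hQ : ∀ n, ∃ r : ℚ, Q.coeff n = (r : ℂ)) :
    mapCoeff φ (P * Q) = mapCoeff φ P * Q := by
  ext n
  rw [coeff_mapCoeff, PowerSeries.coeff_mul, PowerSeries.coeff_mul, map_sum]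
  refine Finset.sum_congr rfl fun p _ => ?_
  obtain ⟨r, hr⟩ := hQ p.2
  rw [coeff_mapCoeff, hr, hφ]

/-- Power series with rational coefficients. -/
def ratSeries : Subring (PowerSeries ℂ) := (PowerSeries.map (Rat.castHom ℂ)).range

theorem mem_ratSeries {P : PowerSeries ℂ} :
    P ∈ ratSeries ↔ ∀ n, ∃ r : ℚ, P.coeff n = (r : ℂ) := by
  constructor
  · rintro ⟨Q, rfl⟩ n
    exact ⟨Q.coeff n, by simp⟩
  · intro h
    choose r hr using h
    exact ⟨PowerSeries.mk r, by ext n; simp [hr]⟩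

theorem intSeries_le_ratSeries : intSeries ≤ ratSeries := fun P hP => by
  refine mem_ratSeries.mpr fun n => ?_
  obtain ⟨m, hm⟩ := mem_intSeries.mp hP n
  exact ⟨m, by simpa using hm⟩

/-- Integral closedness of integral power series, in the form used below. -/
theorem mem_intSeries_of_root {μ : ℕ} (hμ : 0 < μ) {X P : PowerSeries ℂ} (e : ℕ → PowerSeries ℂ)
    (hP : P ∈ intSeries) (hP0 : P ≠ 0) (hPX : P * X ∈ intSeries)
    (he : ∀ j ≤ μ, e j ∈ intSeries) (he0 : e 0 = 1)
    (h : ∑ j ∈ Finset.range (μ + 1), e j * X ^ (μ - j) = 0) : X ∈ intSeries := by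
  classical
  set ι := PowerSeries.map (Int.castRingHom ℂ) with hι
  have hinj : Injective ι := PowerSeries.map_injective _ Int.cast_injective
  obtain ⟨p, hp⟩ := hP
  obtain ⟨r, hr⟩ := hPX
  have : ∀ j, ∃ z : PowerSeries ℤ, j ≤ μ → ι z = e j := fun j => by
    by_cases hj : j ≤ μ
    · obtain ⟨z, hz⟩ := he j hj
      exact ⟨z, fun _ => hz⟩
    · exact ⟨0, fun h' => absurd h' hj⟩
  choose z hz using this
  have hp0 : p ≠ 0 := fun h0 => hP0 (by rw [← hp, h0, map_zero])
  have hz0 : z 0 = 1 := hinj (by rw [hz 0 (Nat.zero_le _), he0, map_one])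
  have hid : ∑ j ∈ Finset.range (μ + 1), z j * r ^ (μ - j) * p ^ j = 0 := by
    apply hinj
    rw [map_sum, map_zero]
    have : ∀ j ∈ Finset.range (μ + 1),
        ι (z j * r ^ (μ - j) * p ^ j) = P ^ μ * (e j * X ^ (μ - j)) := by
      intro j hj
      have hjμ : j ≤ μ := Nat.lt_succ_iff.mp (Finset.mem_range.mp hj)
      rw [map_mul, map_mul, map_pow, map_pow, hz j hjμ, hr, hp, mul_pow]
      conv_rhs => rw [show μ = (μ - j) + j by omega, pow_add, Nat.add_sub_cancel]
      ring
    rw [Finset.sum_congr rfl this, ← Finset.mul_sum, h, mul_zero]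
  let K := FractionRing (PowerSeries ℤ)
  set i := algebraMap (PowerSeries ℤ) K with hi
  have hip : i p ≠ 0 := by
    rw [Ne, map_eq_zero_iff _ (IsFractionRing.injective (PowerSeries ℤ) K)]
    exact hp0
  set y : K := i r / i p with hy
  have hsum : ∑ j ∈ Finset.range (μ + 1), i (z j) * y ^ (μ - j) = 0 := by
    refine mul_right_cancel₀ (pow_ne_zero μ hip) ?_
    rw [zero_mul, Finset.sum_mul]
    have := congrArg i hid
    rw [map_sum, map_zero] at this
    rw [← this]
    refine Finset.sum_congr rfl fun j hj => ?_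
    have hjμ : j ≤ μ := Nat.lt_succ_iff.mp (Finset.mem_range.mp hj)
    rw [hy, div_pow, map_mul, map_mul, map_pow, map_pow,
      show i p ^ μ = i p ^ (μ - j) * i p ^ j by rw [← pow_add, Nat.sub_add_cancel hjμ],
      ← mul_assoc, mul_assoc (i (z j)), div_mul_cancel₀ _ (pow_ne_zero _ hip)]
  have hint : IsIntegral (PowerSeries ℤ) y := by
    refine ⟨Polynomial.X ^ μ + ∑ j ∈ Finset.range μ,
      Polynomial.C (z (j + 1)) * Polynomial.X ^ (μ - (j + 1)), ?_, ?_⟩
    · refine Polynomial.monic_X_pow_add (lt_of_le_of_lt (Polynomial.degree_sum_le _ _) ?_)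
      refine (Finset.sup_lt_iff (α := WithBot ℕ) (WithBot.bot_lt_coe μ)).mpr fun j hj => ?_
      exact lt_of_le_of_lt (Polynomial.degree_C_mul_X_pow_le _ _)
        (WithBot.coe_lt_coe.mpr (by have := Finset.mem_range.mp hj; omega : μ - (j + 1) < μ))
    · rw [Finset.sum_range_succ', hz0, map_one, one_mul, Nat.sub_zero] at hsum
      simp only [Polynomial.eval₂_add, Polynomial.eval₂_pow, Polynomial.eval₂_X,
        Polynomial.eval₂_finsetSum, Polynomial.eval₂_mul, Polynomial.eval₂_C]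
      rw [add_comm]
      exact hsum
  obtain ⟨x, hx⟩ := IsIntegrallyClosed.isIntegral_iff.mp hint
  have hxp : x * p = r := by
    apply IsFractionRing.injective (PowerSeries ℤ) K
    rw [map_mul, hx, div_mul_cancel₀ _ hip]
  refine ⟨x, mul_left_cancel₀ hP0 ?_⟩
  rw [← hr, ← hxp, map_mul, hp, mul_comm]

/-- Cusp forms with rational coefficients have bounded denominators. -/
theorem exists_denominator {k : ℕ} (hk : Even k) {f : CuspForm (Gamma0 N) k}
    (hf : IsRationalForm f) : ∃ D : ℕ, 0 < D ∧ (D : ℂ) • f ∈ CuspForm.intLattice N k := by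
  classical
  set F := cuspToQ f with hFdef
  set μ := Fintype.card (Coset N) with hμdef
  have hμ : 0 < μ := Fintype.card_pos
  have hq : qExp F ∈ ratSeries := mem_ratSeries.mpr hf
  obtain ⟨M, a, A, ha, ha0, hA, hrel⟩ := exists_relation hk (cuspToQ_mem f)
  obtain ⟨n₀, hn₀⟩ : ∃ n, (qExp a).coeff n ≠ 0 := by
    by_contra h
    push Not at h
    exact ha0 (qExp_injective (by ext n; simp [h n]))
  obtain ⟨φ, hφ1, hφr, hφm⟩ := exists_ratProjection hn₀
  obtain ⟨ψ, hψ1, hψr, hψm⟩ := exists_ratProjection (one_ne_zero : (1 : ℂ) ≠ 0)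
  obtain ⟨aπ, haπ, haπq, haD⟩ := exists_mapCoeff_levelOne ha φ
  obtain ⟨Da, hDa, hDaint⟩ := haD hφr
  choose Aπ hAπ hAπq hAD using fun r => exists_mapCoeff_levelOne (hA r) φ
  choose DA hDA hDAint using fun r => hAD r hφr
  choose E hE hEeq using fun j => esymFun_mem F (cuspToQ_mem f) j
  choose Eπ hEπ hEπq hED using fun j => exists_mapCoeff_levelOne (hE j) ψ
  choose DE hDE hDEint using fun j => hED j hψr
  have haπ0 : qExp aπ ≠ 0 := by
    intro h0
    have := congrArg (PowerSeries.coeff n₀) haπq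
    rw [h0, coeff_mapCoeff, hφ1] at this
    simp at this
  have hB : ∀ r : ℕ, qExp (scaledDelta N ^ r) ∈ intSeries := fun r => by
    rw [map_pow]; exact intSeries.pow_mem (qExp_scaledDelta_int (NeZero.ne N)) r
  have hlin : qExp aπ * qExp F + ∑ r : Fin μ, qExp (Aπ r) * qExp (scaledDelta N ^ (r : ℕ)) = 0 := by
    have h := congrArg (fun x => mapCoeff φ (qExp x)) hrel
    simp only [map_add, map_sum, map_mul, mapCoeff_add, mapCoeff_sum, map_zero, mapCoeff_zero] at h
    rw [mapCoeff_mul_rational hφm _ (mem_ratSeries.mp hq), ← haπq] at h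
    rw [← h]
    congr 1
    refine Finset.sum_congr rfl fun r _ => ?_
    rw [mapCoeff_mul_rational hφm _ (mem_ratSeries.mp (intSeries_le_ratSeries (hB r))), ← hAπq]
  obtain ⟨hE0, hErel⟩ := esymFun_relation (F : ℍ → ℂ) (fun _ h => levelN_slash (cuspToQ_mem f) h)
  have hErel' : ∑ j ∈ Finset.range (μ + 1), E j * F ^ (μ - j) = 0 := by
    refine Subtype.ext ?_
    simp only [AddSubmonoidClass.coe_finsetSum, MulMemClass.coe_mul, SubmonoidClass.coe_pow,
      hEeq, ZeroMemClass.coe_zero]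
    exact hErel
  have hE0' : qExp (Eπ 0) = 1 := by
    rw [hEπq, show E 0 = 1 from Subtype.ext ((hEeq 0).trans hE0), map_one]
    ext n
    rw [coeff_mapCoeff, PowerSeries.coeff_one]
    split_ifs
    · exact hψ1
    · exact map_zero ψ
  have hpoly : ∑ j ∈ Finset.range (μ + 1), qExp (Eπ j) * qExp F ^ (μ - j) = 0 := by
    have h := congrArg (fun x => mapCoeff ψ (qExp x)) hErel'
    simp only [map_sum, map_mul, map_pow, mapCoeff_sum, map_zero, mapCoeff_zero] at h
    rw [← h]
    refine Finset.sum_congr rfl fun j _ => ?_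
    rw [mapCoeff_mul_rational hψm _ (mem_ratSeries.mp (ratSeries.pow_mem hq _)), ← hEπq]
  -- denominators
  set D := ∏ j ∈ Finset.range (μ + 1), DE j with hD
  set D₁ := Da * ∏ r, DA r with hD₁
  have hDpos : 0 < D := Finset.prod_pos fun j _ => hDE j
  have hD₁pos : 0 < D₁ := Nat.mul_pos hDa (Finset.prod_pos fun r _ => hDA r)
  have hmul_of_dvd : ∀ {d d' : ℕ} {P : PowerSeries ℂ}, d ∣ d' →
      (d : PowerSeries ℂ) * P ∈ intSeries → (d' : PowerSeries ℂ) * P ∈ intSeries := by
    rintro d _ P ⟨c, rfl⟩ hP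
    rw [Nat.cast_mul, mul_comm (d : PowerSeries ℂ), mul_assoc]
    exact intSeries.mul_mem (natCast_mem intSeries c) hP
  set X : PowerSeries ℂ := (D : PowerSeries ℂ) * qExp F
  set e : ℕ → PowerSeries ℂ := fun j => (D : PowerSeries ℂ) ^ j * qExp (Eπ j)
  have hX : X ∈ intSeries := by
    refine mem_intSeries_of_root hμ e (hmul_of_dvd (Dvd.intro _ rfl) hDaint :
      (D₁ : PowerSeries ℂ) * qExp aπ ∈ intSeries) ?_ ?_ ?_ (by simp [e, hE0']) ?_
    · exact mul_ne_zero (by
        rw [← map_natCast (PowerSeries.C : ℂ →+* PowerSeries ℂ), Ne,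
          map_eq_zero_iff _ PowerSeries.C_injective]
        exact Nat.cast_ne_zero.mpr hD₁pos.ne') haπ0
    · rw [show (D₁ : PowerSeries ℂ) * qExp aπ * X =
          -((D : PowerSeries ℂ) * ∑ r : Fin μ, ((D₁ : PowerSeries ℂ) * qExp (Aπ r)) *
              qExp (scaledDelta N ^ (r : ℕ))) by
        simp only [X, mul_assoc, ← Finset.mul_sum]
        linear_combination ((D₁ : PowerSeries ℂ) * D) * hlin]
      refine intSeries.neg_mem (intSeries.mul_mem (natCast_mem intSeries D)
        (intSeries.sum_mem fun r _ => intSeries.mul_mem (hmul_of_dvd ?_ (hDAint r)) (hB r)))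
      exact Dvd.dvd.mul_left (Finset.dvd_prod_of_mem _ (Finset.mem_univ r)) Da
    · intro j hj
      rcases Nat.eq_zero_or_pos j with rfl | hj0
      · simp only [e, pow_zero, one_mul, hE0']; exact intSeries.one_mem
      · simp only [e]
        rw [show j = (j - 1) + 1 by omega, pow_succ, mul_assoc]
        exact intSeries.mul_mem (intSeries.pow_mem (natCast_mem intSeries D) _)
          (hmul_of_dvd (Finset.dvd_prod_of_mem _ (Finset.mem_range.mpr (by omega))) (hDEint _))
    · rw [← mul_zero ((D : PowerSeries ℂ) ^ μ), ← hpoly, Finset.mul_sum]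
      refine Finset.sum_congr rfl fun j hj => ?_
      have hjμ : j ≤ μ := Nat.lt_succ_iff.mp (Finset.mem_range.mp hj)
      simp only [e, X, mul_pow]
      conv_rhs => rw [show μ = j + (μ - j) by omega, pow_add, Nat.add_sub_cancel_left]
      ring
  refine ⟨D, hDpos, mem_intLattice_iff.mpr fun n => ?_⟩
  obtain ⟨m, hm⟩ := mem_intSeries.mp hX n
  refine ⟨m, ?_⟩
  simp only [X] at hm
  rw [← map_natCast (PowerSeries.C : ℂ →+* PowerSeries ℂ), PowerSeries.coeff_C_mul] at hm
  rw [qCoeff_smul]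
  exact hm

theorem cuspForm_eq_zero_of_nonpos (hk : k ≤ 0) (f : CuspForm (Gamma0 N) k) : f = 0 := by
  refine eq_zero_of_low_coeff f fun n hn => ?_
  rw [Int.toNat_of_nonpos (mul_nonpos_of_nonpos_of_nonneg hk (Int.natCast_nonneg _)),
    Nat.zero_div, Nat.le_zero] at hn
  rw [hn, qCoeff_cusp_zero]

theorem cuspForm_eq_zero_of_odd (hk : Odd k) (f : CuspForm (Gamma0 N) k) : f = 0 := by
  have hmem : (-1 : GL (Fin 2) ℝ) ∈
      (Subgroup.map (Matrix.SpecialLinearGroup.mapGL ℝ) (Gamma0 N) : Subgroup (GL (Fin 2) ℝ)) :=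
    ⟨-1, by simp, by ext; simp⟩
  have := ModularForm.eq_zero_of_neg_one_mem hmem hk (ModularFormClass.modularForm f)
  exact DFunLike.coe_injective (congrArg DFunLike.coe this :)

/-- Cusp forms on `Gamma0 N` of any weight have an integral structure. -/
theorem hasIntegralStructure (N : ℕ) [NeZero N] (k : ℤ) : CuspForm.HasIntegralStructure N k := by
  rcases le_or_gt k 0 with hk | hk
  · exact eq_top_iff.mpr fun f _ => by rw [cuspForm_eq_zero_of_nonpos hk f]; exact zero_mem _
  rcases Int.even_or_odd k with hev | hodd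
  swap
  · exact eq_top_iff.mpr fun f _ => by rw [cuspForm_eq_zero_of_odd hodd f]; exact zero_mem _
  lift k to ℕ using hk.le
  have hk' : Even k := by exact_mod_cast hev
  refine eq_top_iff.mpr ((rationalForms_span (N := N) hk').symm.trans_le (Submodule.span_le.mpr ?_))
  intro f hf
  obtain ⟨D, hD, hmem⟩ := exists_denominator hk' hf
  rw [SetLike.mem_coe]
  have hD0 : (D : ℂ) ≠ 0 := Nat.cast_ne_zero.mpr hD.ne'
  rw [← inv_smul_smul₀ hD0 f]
  exact Submodule.smul_mem _ _ (Submodule.subset_span hmem)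

/-- The Hecke algebra of any weight is a finitely generated abelian group. -/
theorem moduleFinite_heckeAlgebra (N : ℕ) [NeZero N] (k : ℤ) (S : Set ℕ) :
    Module.Finite ℤ (CuspForm.heckeAlgebra N k S) := by
  rcases lt_or_ge k 1 with hk | hk
  · haveI : Subsingleton (CuspForm (Gamma0 N) k) :=
      ⟨fun f g => by
        rw [cuspForm_eq_zero_of_nonpos (by omega) f, cuspForm_eq_zero_of_nonpos (by omega) g]⟩
    haveI : Subsingleton (CuspForm.heckeAlgebra N k S) :=
      ⟨fun s t => Subtype.ext (LinearMap.ext fun f => Subsingleton.elim _ _)⟩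
    exact ⟨⟨∅, by simp [eq_iff_true_of_subsingleton]⟩⟩
  · exact moduleFinite_heckeAlgebra_of_hasIntegralStructure hk (hasIntegralStructure N k) S

end Fermat.Agent.Hecke
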