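import Fermat.Prelude.Def_CuspForm_HeckeAlgebra
import Fermat.Prelude.Def_CuspForm_IntegralStructure
import Fermat.Prelude.Thm_CongruenceSubgroup_one_mem_strictPeriods_Gamma0
import Fermat.Prelude.Thm_ModularFormClass_qCoeff_heckeT
import Fermat.Prelude.Thm_ModularFormClass_qCoeff_heckeU
import Fermat.Prelude.Thm_UpperHalfPlane_eq_of_forall_qCoeff_eq
import Mathlib.LinearAlgebra.FiniteDimensional.Basic

/-!
Basic facts about the q-coefficients of cusp forms on `Gamma0 N`.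
-/

set_option autoImplicit false

noncomputable section

open CongruenceSubgroup ModularFormClass

namespace Fermat.Agent.Hecke

variable {N : ℕ} {k : ℤ}

theorem one_mem_periods (N : ℕ) :
    (1 : ℝ) ∈ (Subgroup.map (Matrix.SpecialLinearGroup.mapGL ℝ) (Gamma0 N)).strictPeriods :=
  CongruenceSubgroup.one_mem_strictPeriods_Gamma0 N

theorem qCoeff_add (f g : CuspForm (Gamma0 N) k) (n : ℕ) :
    qCoeff ⇑(f + g) n = qCoeff ⇑f n + qCoeff ⇑g n := by
  simp only [qCoeff, FunLike.coe_add]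
  rw [ModularForm.qExpansion_add one_pos (one_mem_periods N) f g, map_add]

theorem qCoeff_smul (c : ℂ) (f : CuspForm (Gamma0 N) k) (n : ℕ) :
    qCoeff ⇑(c • f) n = c * qCoeff ⇑f n := by
  simp only [qCoeff, FunLike.coe_smul]
  rw [ModularForm.qExpansion_smul one_pos (one_mem_periods N) c f]
  simp

/-- The coefficient as a linear functional. -/
def qCoeffLin (N : ℕ) (k : ℤ) (n : ℕ) : CuspForm (Gamma0 N) k →ₗ[ℂ] ℂ where
  toFun f := qCoeff ⇑f n
  map_add' f g := qCoeff_add f g n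
  map_smul' c f := qCoeff_smul c f n

@[simp] theorem qCoeffLin_apply (f : CuspForm (Gamma0 N) k) (n : ℕ) :
    qCoeffLin N k n f = qCoeff ⇑f n := rfl

theorem qCoeff_zero_form (n : ℕ) : qCoeff ⇑(0 : CuspForm (Gamma0 N) k) n = 0 :=
  (qCoeffLin N k n).map_zero

theorem qCoeff_sub (f g : CuspForm (Gamma0 N) k) (n : ℕ) :
    qCoeff ⇑(f - g) n = qCoeff ⇑f n - qCoeff ⇑g n :=
  (qCoeffLin N k n).map_sub f g

theorem qCoeff_intCast_smul (c : ℤ) (f : CuspForm (Gamma0 N) k) (n : ℕ) :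
    qCoeff ⇑(c • f) n = c * qCoeff ⇑f n := by
  rw [← qCoeff_smul, Int.cast_smul_eq_zsmul]

theorem qCoeff_cusp_zero (f : CuspForm (Gamma0 N) k) : qCoeff ⇑f 0 = 0 :=
  CuspFormClass.qExpansion_coeff_zero f one_pos (one_mem_periods N)

theorem cuspForm_ext_qCoeff [NeZero N] {f g : CuspForm (Gamma0 N) k}
    (h : ∀ n, qCoeff ⇑f n = qCoeff ⇑g n) : f = g :=
  DFunLike.coe_injective <| UpperHalfPlane.eq_of_forall_qCoeff_eq
    (SlashInvariantFormClass.periodic_comp_ofComplex f (one_mem_periods N))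
    (CuspFormClass.holo f) (ModularFormClass.bdd_at_infty f)
    (SlashInvariantFormClass.periodic_comp_ofComplex g (one_mem_periods N))
    (CuspFormClass.holo g) (ModularFormClass.bdd_at_infty g) h

theorem qCoeff_heckeTLin [NeZero N] {ℓ : ℕ} (hℓ : ℓ.Prime) (hℓN : ¬ ℓ ∣ N)
    (f : CuspForm (Gamma0 N) k) (n : ℕ) :
    qCoeff ⇑(CuspForm.heckeTLin k hℓ hℓN f) n =
      qCoeff ⇑f (n * ℓ) + if ℓ ∣ n then (ℓ : ℂ) ^ (k - 1) * qCoeff ⇑f (n / ℓ) else 0 := by
  rw [CuspForm.coe_heckeTLin_apply,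
    ModularFormClass.qCoeff_heckeT f (one_mem_periods N) hℓ.ne_zero]
  rfl

theorem qCoeff_heckeULin [NeZero N] {q : ℕ} (hq : q.Prime) (hqN : q ∣ N)
    (f : CuspForm (Gamma0 N) k) (n : ℕ) :
    qCoeff ⇑(CuspForm.heckeULin k hqN f) n = qCoeff ⇑f (n * q) := by
  rw [CuspForm.coe_heckeULin_apply,
    ModularFormClass.qCoeff_heckeU f (one_mem_periods N) hq.ne_zero]
  rfl

end Fermat.Agent.Hecke
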