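import Fermat.Agent.Hecke.GoodAlg
import Mathlib.NumberTheory.ModularForms.LevelOne.GradedRing

/-!
Level one forms inside `qFunctions` are spanned by forms with integral q-expansion, hence are
stable under applying an additive map to the coefficients.
-/

set_option autoImplicit false

noncomputable section

open UpperHalfPlane Function ModularForm EisensteinSeries
open scoped MatrixGroups

namespace Fermat.Agent.Hecke

/-- Power series over `ℂ` with integral coefficients. -/
def intSeries : Subring (PowerSeries ℂ) := (PowerSeries.map (Int.castRingHom ℂ)).range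

theorem mem_intSeries {P : PowerSeries ℂ} :
    P ∈ intSeries ↔ ∀ n, ∃ m : ℤ, P.coeff n = (m : ℂ) := by
  constructor
  · rintro ⟨Q, rfl⟩ n
    exact ⟨Q.coeff n, by simp⟩
  · intro h
    choose m hm using h
    exact ⟨PowerSeries.mk m, by ext n; simp [hm]⟩

/-- A modular form of level one as a member of `qFunctions`. -/
def toQ (w : ℤ) : ModularForm 𝒮ℒ w →ₗ[ℂ] qFunctions where
  toFun f := ⟨⇑f, coe_mem_qFunctions one_mem_strictPeriods_SL f⟩
  map_add' _ _ := rfl
  map_smul' _ _ := rfl

theorem toQ_coe {w : ℤ} (f : ModularForm 𝒮ℒ w) : ((toQ w f : qFunctions) : ℍ → ℂ) = ⇑f := rfl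

theorem toQ_injective (w : ℤ) : Injective (toQ w) := fun _ _ h =>
  DFunLike.coe_injective (congrArg Subtype.val h)

/-- Level one forms of weight `w`. -/
def levelOne (w : ℤ) : Submodule ℂ qFunctions := (toQ w).range

theorem levelOne_mul {a b c : ℤ} (h : a + b = c) {F G : qFunctions} (hF : F ∈ levelOne a)
    (hG : G ∈ levelOne b) : F * G ∈ levelOne c := by
  obtain ⟨f, rfl⟩ := hF
  obtain ⟨g, rfl⟩ := hG
  exact ⟨ModularForm.mcast h (f.mul g), rfl⟩

theorem one_mem_levelOne : (1 : qFunctions) ∈ levelOne 0 := ⟨1, rfl⟩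

theorem levelOne_pow {a : ℤ} {F : qFunctions} (hF : F ∈ levelOne a) (n : ℕ) :
    F ^ n ∈ levelOne (n * a) := by
  induction n with
  | zero => simpa using one_mem_levelOne
  | succ n ih =>
    rw [pow_succ]
    exact levelOne_mul (by push_cast; ring) ih hF

/-- Weight four Eisenstein series. -/
def eis4 : qFunctions := toQ 4 E₄
/-- Weight six Eisenstein series. -/
def eis6 : qFunctions := toQ 6 E₆
/-- The discriminant. -/
def delta : qFunctions := toQ 12 (ModularFormClass.modularForm CuspForm.discriminant)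

theorem eis4_int : qExp eis4 ∈ intSeries := by
  refine mem_intSeries.mpr fun m => ?_
  refine ⟨if m = 0 then 1 else 240 * (ArithmeticFunction.sigma 3 m : ℤ), ?_⟩
  rw [qExp_apply, eis4, toQ_coe]
  rw [E_qExpansion_coeff (by norm_num) ⟨2, rfl⟩, show bernoulli 4 = -1 / 30 by decide +kernel]
  split_ifs <;> push_cast <;> ring

theorem eis6_int : qExp eis6 ∈ intSeries := by
  refine mem_intSeries.mpr fun m => ?_
  refine ⟨if m = 0 then 1 else -504 * (ArithmeticFunction.sigma 5 m : ℤ), ?_⟩
  rw [qExp_apply, eis6, toQ_coe]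
  rw [E_qExpansion_coeff (by norm_num) ⟨3, rfl⟩, show bernoulli 6 = 1 / 42 by decide +kernel]
  split_ifs <;> push_cast <;> ring

theorem delta_eq : delta = (1 / 1728 : ℂ) • (eis4 ^ 3 - eis6 ^ 2) := by
  refine Subtype.ext (funext fun z => ?_)
  show ModularForm.discriminant z = (1 / 1728 : ℂ) * (E₄ z ^ 3 - E₆ z ^ 2)
  rw [discriminant_eq_E₄_cube_sub_E₆_sq]
  ring

theorem scaled_delta_int : qExp ((1728 : ℂ) • delta) ∈ intSeries := by
  rw [delta_eq, smul_smul, show (1728 : ℂ) * (1 / 1728) = 1 by norm_num, one_smul, map_sub,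
    map_pow, map_pow]
  exact intSeries.sub_mem (intSeries.pow_mem eis4_int 3) (intSeries.pow_mem eis6_int 2)

/-- Forms of level one and weight `w` with integral q-expansion. -/
def levelOneInt (w : ℤ) : Set qFunctions := {F | F ∈ levelOne w ∧ qExp F ∈ intSeries}

theorem levelOne_le_span : ∀ (w : ℤ), levelOne w ≤ Submodule.span ℂ (levelOneInt w) := by
  suffices key : ∀ (n : ℕ) (w : ℤ), w < n → levelOne w ≤ Submodule.span ℂ (levelOneInt w) from
    fun w => key (w.toNat + 1) w (by omega)
  intro n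
  induction n using Nat.strong_induction_on with
  | _ n IH =>
    rintro w hw _ ⟨f, rfl⟩
    rcases lt_or_ge w 0 with hneg | hpos
    · rw [DFunLike.coe_injective ((ModularFormClass.levelOne_neg_weight_eq_zero hneg f).trans
        FunLike.coe_zero.symm), map_zero]
      exact zero_mem _
    rcases Int.even_or_odd w with hev | hodd
    swap
    · rw [levelOne_odd_weight_eq_zero hodd f, map_zero]
      exact zero_mem _
    rcases eq_or_ne w 2 with rfl | hw2
    · rw [rank_zero_iff_forall_zero.mp levelOne_weight_two_rank_zero f, map_zero]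
      exact zero_mem _
    obtain ⟨a, b, hab⟩ : ∃ a b : ℕ, (a : ℤ) * 4 + (b : ℤ) * 6 = w := by
      obtain ⟨c, rfl⟩ := hev
      rcases Int.even_or_odd c with ⟨d, rfl⟩ | ⟨d, rfl⟩
      · exact ⟨d.toNat, 0, by omega⟩
      · exact ⟨(d - 1).toNat, 1, by omega⟩
    let E : qFunctions := eis4 ^ a * eis6 ^ b
    have hE : E ∈ levelOne w := levelOne_mul hab (levelOne_pow ⟨_, rfl⟩ a) (levelOne_pow ⟨_, rfl⟩ b)
    have hEint : qExp E ∈ intSeries := by
      simp only [E, map_mul, map_pow]
      exact intSeries.mul_mem (intSeries.pow_mem eis4_int a) (intSeries.pow_mem eis6_int b)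
    have hE0 : (qExp E).coeff 0 = 1 := by
      simp only [E, map_mul, map_pow, PowerSeries.coeff_zero_eq_constantCoeff]
      simp only [← PowerSeries.coeff_zero_eq_constantCoeff_apply, qExp_apply, eis4, eis6, toQ_coe]
      rw [E_qExpansion_coeff_zero _ ⟨2, rfl⟩, E_qExpansion_coeff_zero _ ⟨3, rfl⟩]
      simp
    obtain ⟨e, he⟩ := hE
    let c : ℂ := (qExp (toQ w f)).coeff 0
    have hg0 : (qExpansion 1 ⇑(f - c • e)).coeff 0 = 0 := by
      rw [← toQ_coe, ← qExp_apply, map_sub, map_smul, map_sub, map_smul, he, map_sub,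
        map_smul, hE0, smul_eq_mul, mul_one, sub_self]
    let h := CuspForm.discriminantEquiv (toCuspForm (f - c • e) hg0)
    have hsplit : toQ w f = c • E + delta * toQ (w - 12) h := by
      rw [← he, ← map_smul, eq_comm, ← eq_sub_iff_add_eq', ← map_sub]
      exact Subtype.ext (discriminant_mul_discriminantEquiv (toCuspForm (f - c • e) hg0))
    rw [hsplit]
    refine add_mem (Submodule.smul_mem _ c (Submodule.subset_span ⟨⟨e, he⟩, hEint⟩)) ?_
    rcases lt_or_ge w 12 with h12 | h12
    · rw [DFunLike.coe_injective ((ModularFormClass.levelOne_neg_weight_eq_zero (by omega) h).trans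
        FunLike.coe_zero.symm), map_zero, mul_zero]
      exact zero_mem _
    · have hrec := IH (n - 12) (by omega) (w - 12) (by omega) ⟨h, rfl⟩
      generalize toQ (w - 12) h = G at hrec ⊢
      induction hrec using Submodule.span_induction with
      | mem G hG =>
        rw [show delta * G = (1 / 1728 : ℂ) • (((1728 : ℂ) • delta) * G) by
          rw [smul_mul_assoc, smul_smul]; norm_num]
        refine Submodule.smul_mem _ _ (Submodule.subset_span ⟨?_, ?_⟩)
        · exact levelOne_mul (by ring) (Submodule.smul_mem _ _ ⟨_, rfl⟩) hG.1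
        · rw [map_mul]
          exact intSeries.mul_mem scaled_delta_int hG.2
      | zero => simp
      | add x y _ _ hx hy => rw [mul_add]; exact add_mem hx hy
      | smul r x _ hx => rw [mul_smul_comm]; exact Submodule.smul_mem _ r hx

/-- Applying an additive map to all coefficients. -/
def mapCoeff (φ : ℂ →+ ℂ) (P : PowerSeries ℂ) : PowerSeries ℂ :=
  PowerSeries.mk fun n => φ (P.coeff n)

@[simp] theorem coeff_mapCoeff (φ : ℂ →+ ℂ) (P : PowerSeries ℂ) (n : ℕ) :
    (mapCoeff φ P).coeff n = φ (P.coeff n) := PowerSeries.coeff_mk _ _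

theorem mapCoeff_add (φ : ℂ →+ ℂ) (P Q : PowerSeries ℂ) :
    mapCoeff φ (P + Q) = mapCoeff φ P + mapCoeff φ Q := by
  ext n; simp

theorem mapCoeff_zero (φ : ℂ →+ ℂ) : mapCoeff φ 0 = 0 := by
  ext n; simp

theorem mapCoeff_sum {ι : Type*} (φ : ℂ →+ ℂ) (s : Finset ι) (P : ι → PowerSeries ℂ) :
    mapCoeff φ (∑ i ∈ s, P i) = ∑ i ∈ s, mapCoeff φ (P i) :=
  map_sum (⟨⟨mapCoeff φ, mapCoeff_zero φ⟩, mapCoeff_add φ⟩ : PowerSeries ℂ →+ PowerSeries ℂ) P s

/-- Every level one form is a finite combination of integral ones, so its image under an additive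
map applied to the coefficients is again a form, with the combination transformed. -/
theorem exists_mapCoeff_levelOne {w : ℤ} {F : qFunctions} (hF : F ∈ levelOne w) (φ : ℂ →+ ℂ) :
    ∃ G ∈ levelOne w, qExp G = mapCoeff φ (qExp F) ∧
      ((∀ x, ∃ r : ℚ, φ x = (r : ℂ)) →
        ∃ D : ℕ, 0 < D ∧ (D : PowerSeries ℂ) * qExp G ∈ intSeries) := by
  obtain ⟨m, c, g, hsum⟩ := Submodule.mem_span_set'.mp (levelOne_le_span w hF)
  refine ⟨∑ i, φ (c i) • (g i : qFunctions),
    Submodule.sum_mem _ fun i _ => Submodule.smul_mem _ _ (g i).2.1, ?_, ?_⟩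
  · rw [← hsum, map_sum, map_sum, mapCoeff_sum]
    refine Finset.sum_congr rfl fun i _ => ?_
    ext n
    obtain ⟨z, hz⟩ := mem_intSeries.mp (g i).2.2 n
    simp only [map_smul, coeff_mapCoeff, PowerSeries.coeff_smul, hz, smul_eq_mul]
    rw [mul_comm (φ (c i)), mul_comm (c i), ← zsmul_eq_mul, ← zsmul_eq_mul, map_zsmul]
  · intro hφ
    choose r hr using hφ
    refine ⟨∏ i, (r (c i)).den, Finset.prod_pos fun i _ => (r (c i)).den_pos, ?_⟩
    rw [map_sum, Finset.mul_sum]
    refine intSeries.sum_mem fun i _ => mem_intSeries.mpr fun n => ?_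
    obtain ⟨z, hz⟩ := mem_intSeries.mp (g i).2.2 n
    refine ⟨(∏ j ∈ Finset.univ.erase i, ((r (c j)).den : ℤ)) * (r (c i)).num * z, ?_⟩
    rw [← map_natCast (PowerSeries.C : ℂ →+* PowerSeries ℂ), PowerSeries.coeff_C_mul, map_smul,
      PowerSeries.coeff_smul, hz, smul_eq_mul, hr,
      ← Finset.mul_prod_erase Finset.univ (fun j => (r (c j)).den) (Finset.mem_univ i)]
    push_cast
    rw [Rat.cast_def (r (c i))]
    have : ((r (c i)).den : ℂ) ≠ 0 := Nat.cast_ne_zero.mpr (r (c i)).den_ne_zero
    field_simp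

end Fermat.Agent.Hecke
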