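import Fermat.Agent.Hecke.LevelOneSpan
import Fermat.Prelude.Thm_CongruenceSubgroup_one_mem_strictPeriods_Gamma0
import Mathlib.NumberTheory.ModularForms.CongruenceSubgroups

/-!
Forms of level `N` inside `qFunctions`, with constructors.
-/

set_option autoImplicit false

noncomputable section

open UpperHalfPlane Function ModularForm CongruenceSubgroup
open scoped MatrixGroups Manifold

namespace Fermat.Agent.Hecke

variable (N : ℕ)

/-- A modular form of level `N` as a member of `qFunctions`. -/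
def toQN (w : ℤ) : ModularForm (Gamma0 N) w →ₗ[ℂ] qFunctions where
  toFun f := ⟨⇑f, coe_mem_qFunctions (CongruenceSubgroup.one_mem_strictPeriods_Gamma0 N) f⟩
  map_add' _ _ := rfl
  map_smul' _ _ := rfl

theorem toQN_coe {w : ℤ} (f : ModularForm (Gamma0 N) w) :
    ((toQN N w f : qFunctions) : ℍ → ℂ) = ⇑f := rfl

theorem toQN_injective (w : ℤ) : Injective (toQN N w) := fun _ _ h =>
  DFunLike.coe_injective (congrArg Subtype.val h)

/-- Forms of level `N` and weight `w`. -/
def levelN (w : ℤ) : Submodule ℂ qFunctions := (toQN N w).range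

variable {N}

theorem levelN_mul {a b c : ℤ} (h : a + b = c) {F G : qFunctions} (hF : F ∈ levelN N a)
    (hG : G ∈ levelN N b) : F * G ∈ levelN N c := by
  obtain ⟨f, rfl⟩ := hF
  obtain ⟨g, rfl⟩ := hG
  exact ⟨ModularForm.mcast h (f.mul g), rfl⟩

theorem levelN_slash {w : ℤ} {F : qFunctions} (hF : F ∈ levelN N w) {γ : SL(2, ℤ)}
    (hγ : γ ∈ Gamma0 N) : (F : ℍ → ℂ) ∣[w] γ = (F : ℍ → ℂ) := by
  obtain ⟨f, rfl⟩ := hF
  exact SlashInvariantFormClass.slash_action_eq f _ (Subgroup.mem_map_of_mem _ hγ)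

theorem levelN_bdd_slash [NeZero N] {w : ℤ} {F : qFunctions} (hF : F ∈ levelN N w) (δ : SL(2, ℤ)) :
    IsBoundedAtImInfty ((F : ℍ → ℂ) ∣[w] δ) := by
  obtain ⟨f, rfl⟩ := hF
  exact ModularFormClass.bdd_at_infty_slash f δ

theorem mem_levelN_of [NeZero N] {w : ℤ} (F : qFunctions)
    (hinv : ∀ γ ∈ Gamma0 N, (F : ℍ → ℂ) ∣[w] γ = (F : ℍ → ℂ))
    (hbdd : ∀ δ : SL(2, ℤ), IsBoundedAtImInfty ((F : ℍ → ℂ) ∣[w] δ)) : F ∈ levelN N w := by
  refine ⟨
    { toFun := F
      slash_action_eq' := fun _ ⟨γ, hγ, hg⟩ => hg ▸ hinv γ hγ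
      holo' := F.2.2.1
      bdd_at_cusps' := fun {c} hc => by
        rw [Subgroup.IsArithmetic.isCusp_iff_isCusp_SL2Z] at hc
        rw [OnePoint.isBoundedAt_iff_forall_SL2Z hc]
        exact fun δ _ => hbdd δ }, rfl⟩

theorem levelOne_slash {w : ℤ} {F : qFunctions} (hF : F ∈ levelOne w) (γ : SL(2, ℤ)) :
    (F : ℍ → ℂ) ∣[w] γ = (F : ℍ → ℂ) := by
  obtain ⟨f, rfl⟩ := hF
  exact SlashInvariantFormClass.slash_action_eq f _ ⟨γ, rfl⟩

theorem mem_levelOne_of {w : ℤ} (F : qFunctions)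
    (hinv : ∀ γ : SL(2, ℤ), (F : ℍ → ℂ) ∣[w] γ = (F : ℍ → ℂ)) : F ∈ levelOne w := by
  refine ⟨
    { toFun := F
      slash_action_eq' := fun _ ⟨γ, hg⟩ => hg ▸ hinv γ
      holo' := F.2.2.1
      bdd_at_cusps' := fun {c} hc => by
        rw [Subgroup.IsArithmetic.isCusp_iff_isCusp_SL2Z] at hc
        rw [OnePoint.isBoundedAt_iff_forall_SL2Z hc]
        intro δ _
        rw [hinv δ]
        exact F.2.2.2 }, rfl⟩

theorem levelOne_le_levelN [NeZero N] (w : ℤ) : levelOne w ≤ levelN N w := fun F hF =>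
  mem_levelN_of F (fun γ _ => levelOne_slash hF γ) fun δ => by
    rw [levelOne_slash hF δ]
    exact F.2.2.2

theorem one_mem_levelN [NeZero N] : (1 : qFunctions) ∈ levelN N 0 :=
  levelOne_le_levelN 0 one_mem_levelOne

theorem levelN_pow [NeZero N] {a : ℤ} {F : qFunctions} (hF : F ∈ levelN N a) (n : ℕ) :
    F ^ n ∈ levelN N (n * a) := by
  induction n with
  | zero => simpa using one_mem_levelN
  | succ n ih =>
    rw [pow_succ]
    exact levelN_mul (by push_cast; ring) ih hF

/-- Members of `qFunctions` are continuous. -/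
theorem continuous_of_mem (F : qFunctions) : Continuous (F : ℍ → ℂ) := F.2.2.1.continuous

/-- The extension by `ofComplex` is analytic on the upper half plane. -/
theorem analyticOnNhd_ofComplex {F : ℍ → ℂ} (hF : MDiff F) :
    AnalyticOnNhd ℂ (F ∘ ofComplex) upperHalfPlaneSet :=
  (UpperHalfPlane.mdifferentiable_iff.mp hF).analyticOnNhd isOpen_upperHalfPlaneSet

/-- No zero divisors among holomorphic functions on the upper half plane. -/
theorem eq_zero_or_eq_zero_of_holo_mul {F G : ℍ → ℂ} (hF : MDiff F) (hG : MDiff G)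
    (h : F * G = 0) : F = 0 ∨ G = 0 := by
  have hconv : Convex ℝ upperHalfPlaneSet := convex_halfSpace_im_gt 0
  rcases (analyticOnNhd_ofComplex hF).eq_zero_or_eq_zero_of_mul_eq_zero
      (analyticOnNhd_ofComplex hG) (fun z _ => congrFun h (ofComplex z))
      hconv.isPreconnected with h0 | h0
  · exact .inl (funext fun τ => by simpa [ofComplex_apply] using h0 τ τ.2)
  · exact .inr (funext fun τ => by simpa [ofComplex_apply] using h0 τ τ.2)

theorem mul_right_cancel_holo {F G A : ℍ → ℂ} (hF : MDiff F) (hG : MDiff G) (hA : MDiff A)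
    (hA0 : A ≠ 0) (h : F * A = G * A) : F = G := by
  rcases eq_zero_or_eq_zero_of_holo_mul (hF.sub hG) hA (by rw [sub_mul, h, sub_self]) with h0 | h0
  · exact sub_eq_zero.mp h0
  · exact absurd h0 hA0

instance : IsDomain qFunctions :=
  haveI : NoZeroDivisors qFunctions := ⟨fun {F G} h => by
    rcases eq_zero_or_eq_zero_of_holo_mul F.2.2.1 G.2.2.1 (congrArg Subtype.val h) with h0 | h0
    · exact .inl (Subtype.ext h0)
    · exact .inr (Subtype.ext h0)⟩
  NoZeroDivisors.to_isDomain _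

end Fermat.Agent.Hecke
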