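import Fermat.Agent.Hecke.LevelForms
import Mathlib.Analysis.Analytic.Order

/-!
Division of holomorphic functions on the upper half plane, and bounds on roots of monic polynomials.
-/

set_option autoImplicit false

noncomputable section

open UpperHalfPlane Filter Topology Function
open scoped Manifold

namespace Fermat.Agent.Hecke

/-- If `R` is locally bounded by a multiple of `A`, then `R = F * A` with `F` holomorphic. -/
theorem exists_holo_div {R A : ℍ → ℂ} (hR : MDiff R) (hA : MDiff A) (hA0 : A ≠ 0)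
    (C : ℍ → ℝ) (hC : Continuous C) (hle : ∀ τ, ‖R τ‖ ≤ C τ * ‖A τ‖) :
    ∃ F : ℍ → ℂ, MDiff F ∧ F * A = R := by
  set r := R ∘ ofComplex
  set a := A ∘ ofComplex
  have hr := analyticOnNhd_ofComplex hR
  have ha := analyticOnNhd_ofComplex hA
  let F : ℂ → ℂ := fun z => limUnder (𝓝[≠] z) fun w => r w / a w
  have local_eq : ∀ z₀ : ℂ, 0 < z₀.im →
      ∃ g : ℂ → ℂ, AnalyticAt ℂ g z₀ ∧ (F =ᶠ[𝓝 z₀] g) ∧ g z₀ * a z₀ = r z₀ := by
    intro z₀ hz₀
    have hnot : ¬ ∀ᶠ z in 𝓝 z₀, a z = 0 := by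
      intro hev
      refine hA0 (funext fun τ => ?_)
      have := ha.eqOn_zero_of_preconnected_of_eventuallyEq_zero
        (convex_halfSpace_im_gt 0).isPreconnected hz₀ hev τ.2
      simpa [a, ofComplex_apply] using this
    obtain ⟨n, u, hu, hu0, hau⟩ := (ha z₀ hz₀).exists_eventuallyEq_pow_smul_nonzero_iff.mpr hnot
    -- a candidate quotient
    obtain ⟨g, hg, hga⟩ : ∃ g : ℂ → ℂ, AnalyticAt ℂ g z₀ ∧ ∀ᶠ z in 𝓝 z₀, g z * a z = r z := by
      by_cases hr0 : ∀ᶠ z in 𝓝 z₀, r z = 0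
      · exact ⟨0, analyticAt_const, hr0.mono fun z hz => by simp [hz]⟩
      obtain ⟨m, v, hv, hv0, hrv⟩ := (hr z₀ hz₀).exists_eventuallyEq_pow_smul_nonzero_iff.mpr hr0
      have hnm : n ≤ m := by
        by_contra hlt
        push Not at hlt
        let c : ℂ → ℝ := fun z => C (ofComplex z)
        have hc : ContinuousAt c z₀ := by
          refine hC.continuousAt.comp ?_
          exact (mdifferentiableAt_ofComplex hz₀).continuousAt
        have hlim : Tendsto (fun z => c z * ‖z - z₀‖ ^ (n - m) * ‖u z‖) (𝓝[≠] z₀) (𝓝 0) := by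
          have : Tendsto (fun z => c z * ‖z - z₀‖ ^ (n - m) * ‖u z‖) (𝓝 z₀)
              (𝓝 (c z₀ * ‖z₀ - z₀‖ ^ (n - m) * ‖u z₀‖)) :=
            ((hc.mul ((continuousAt_id.sub continuousAt_const).norm.pow _)).mul
              hu.continuousAt.norm)
          rw [sub_self, norm_zero, zero_pow (by omega), mul_zero, zero_mul] at this
          exact this.mono_left nhdsWithin_le_nhds
        have hle' : ∀ᶠ z in 𝓝[≠] z₀, ‖v z‖ ≤ c z * ‖z - z₀‖ ^ (n - m) * ‖u z‖ := by
          filter_upwards [nhdsWithin_le_nhds hau, nhdsWithin_le_nhds hrv, self_mem_nhdsWithin,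
            nhdsWithin_le_nhds (isOpen_upperHalfPlaneSet.mem_nhds hz₀)] with z h1 h2 h3 h4
          have hne : (z - z₀) ≠ 0 := sub_ne_zero.mpr h3
          have := hle (ofComplex z)
          change r z = _ at h2
          change a z = _ at h1
          rw [show R (ofComplex z) = r z from rfl, show A (ofComplex z) = a z from rfl, h1, h2,
            smul_eq_mul, smul_eq_mul, norm_mul, norm_mul, norm_pow, norm_pow] at this
          have hpos : 0 < ‖z - z₀‖ ^ m := pow_pos (norm_pos_iff.mpr hne) m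
          rw [show ‖z - z₀‖ ^ n = ‖z - z₀‖ ^ m * ‖z - z₀‖ ^ (n - m) by
            rw [← pow_add, Nat.add_sub_cancel' hlt.le]] at this
          nlinarith
        have : ‖v z₀‖ ≤ 0 :=
          le_of_tendsto_of_tendsto (hv.continuousAt.norm.tendsto.mono_left nhdsWithin_le_nhds)
            hlim hle'
        exact hv0 (norm_le_zero_iff.mp this)
      refine ⟨fun z => (z - z₀) ^ (m - n) * (v z / u z),
        ((analyticAt_id.sub analyticAt_const).pow _).mul (hv.div hu hu0), ?_⟩
      filter_upwards [hau, hrv, hu.continuousAt.eventually_ne hu0] with z h1 h2 h3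
      change a z = _ at h1
      change r z = _ at h2
      rw [h1, h2, smul_eq_mul, smul_eq_mul, ← Nat.sub_add_cancel hnm, pow_add]
      rw [Nat.add_sub_cancel]
      field_simp
    refine ⟨g, hg, ?_, hga.self_of_nhds⟩
    have hne : ∀ᶠ z in 𝓝[≠] z₀, a z ≠ 0 :=
      (ha z₀ hz₀).eventually_eq_zero_or_eventually_ne_zero.resolve_left hnot
    rw [eventually_nhdsWithin_iff] at hne
    filter_upwards [hga.eventually_nhds, hne.eventually_nhds,
      hg.eventually_analyticAt] with z h1 h2 h3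
    refine Tendsto.limUnder_eq ((h3.continuousAt.tendsto.mono_left nhdsWithin_le_nhds).congr' ?_)
    by_cases hz : z = z₀
    · subst hz
      filter_upwards [nhdsWithin_le_nhds h1, nhdsWithin_le_nhds h2, self_mem_nhdsWithin]
        with w hw hw' hw''
      rw [← hw, mul_div_cancel_right₀ _ (hw' hw'')]
    · have : ∀ᶠ w in 𝓝 z, w ≠ z₀ := isOpen_ne.mem_nhds hz
      filter_upwards [nhdsWithin_le_nhds h1, nhdsWithin_le_nhds h2, nhdsWithin_le_nhds this]
        with w hw hw' hw''
      rw [← hw, mul_div_cancel_right₀ _ (hw' hw'')]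
  refine ⟨fun τ => F τ, ?_, funext fun τ => ?_⟩
  · rw [UpperHalfPlane.mdifferentiable_iff]
    intro z hz
    obtain ⟨g, hg, hFg, -⟩ := local_eq z hz
    have : ((fun τ : ℍ => F τ) ∘ ofComplex) =ᶠ[𝓝 z] g := by
      filter_upwards [hFg, isOpen_upperHalfPlaneSet.mem_nhds hz] with w hw hw'
      rw [Function.comp_apply, ofComplex_apply_of_im_pos hw']
      exact hw
    exact (hg.differentiableAt.congr_of_eventuallyEq this).differentiableWithinAt
  · obtain ⟨g, -, hFg, hga⟩ := local_eq (τ : ℂ) τ.2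
    have := hFg.self_of_nhds
    rw [Pi.mul_apply]
    show F τ * A τ = R τ
    rw [this]
    simpa [a, r, ofComplex_apply] using hga

/-- A root of a monic polynomial is bounded by one plus the sum of the other coefficients. -/
theorem norm_root_le {n : ℕ} (hn : 0 < n) (e : ℕ → ℂ) (he : e 0 = 1) {x : ℂ}
    (h : ∑ j ∈ Finset.range (n + 1), e j * x ^ (n - j) = 0) :
    ‖x‖ ≤ 1 + ∑ j ∈ Finset.range n, ‖e (j + 1)‖ := by
  rcases le_or_gt ‖x‖ 1 with h1 | h1
  · exact h1.trans (le_add_of_nonneg_right (Finset.sum_nonneg fun j _ => norm_nonneg _))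
  rw [Finset.sum_range_succ', he, one_mul, Nat.sub_zero] at h
  have hx : x ^ n = -∑ j ∈ Finset.range n, e (j + 1) * x ^ (n - (j + 1)) :=
    eq_neg_of_add_eq_zero_right h
  have hb : ‖x‖ ^ n ≤ (∑ j ∈ Finset.range n, ‖e (j + 1)‖) * ‖x‖ ^ (n - 1) := by
    rw [← norm_pow, hx, norm_neg]
    refine (norm_sum_le _ _).trans ?_
    rw [Finset.sum_mul]
    refine Finset.sum_le_sum fun j _ => ?_
    rw [norm_mul, norm_pow]
    exact mul_le_mul_of_nonneg_left (pow_le_pow_right₀ h1.le (by omega)) (norm_nonneg _)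
  obtain ⟨m, rfl⟩ : ∃ m, n = m + 1 := ⟨n - 1, by omega⟩
  rw [Nat.add_sub_cancel, pow_succ] at hb
  have := pow_pos (zero_lt_one.trans h1) m
  nlinarith

/-- A root of a monic polynomial with small coefficients is small. -/
theorem tendsto_root_zero {ι : Type*} {l : Filter ι} {n : ℕ} (e : ℕ → ι → ℂ)
    (he : ∀ i, e 0 i = 1) (hsmall : ∀ j, 0 < j → j ≤ n → Tendsto (e j) l (𝓝 0)) (x : ι → ℂ)
    (h : ∀ i, ∑ j ∈ Finset.range (n + 1), e j i * x i ^ (n - j) = 0) : Tendsto x l (𝓝 0) := by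
  rw [NormedAddGroup.tendsto_nhds_zero]
  intro ε hε
  have hS : Tendsto (fun i => ∑ j ∈ Finset.range n, ‖e (j + 1) i‖ / ε ^ (j + 1)) l (𝓝 0) := by
    rw [← Finset.sum_const_zero (s := Finset.range n)]
    refine tendsto_finsetSum _ fun j hj => ?_
    simpa using ((hsmall (j + 1) (by omega)
      (Nat.succ_le_of_lt (Finset.mem_range.mp hj))).norm.div_const (ε ^ (j + 1)))
  filter_upwards [hS.eventually (gt_mem_nhds zero_lt_one)] with i hi
  by_contra hge
  push Not at hge
  have hpos : 0 < ‖x i‖ := hε.trans_le hge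
  have h' := h i
  rw [Finset.sum_range_succ', he i, one_mul, Nat.sub_zero] at h'
  have hx : x i ^ n = -∑ j ∈ Finset.range n, e (j + 1) i * x i ^ (n - (j + 1)) :=
    eq_neg_of_add_eq_zero_right h'
  have hb : ‖x i‖ ^ n ≤ (∑ j ∈ Finset.range n, ‖e (j + 1) i‖ / ε ^ (j + 1)) * ‖x i‖ ^ n := by
    conv_lhs => rw [← norm_pow, hx, norm_neg]
    refine (norm_sum_le _ _).trans ?_
    rw [Finset.sum_mul]
    refine Finset.sum_le_sum fun j hj => ?_
    rw [norm_mul, norm_pow]
    have hjn : j + 1 ≤ n := Nat.succ_le_of_lt (Finset.mem_range.mp hj)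
    rw [div_mul_eq_mul_div, le_div_iff₀ (pow_pos hε _), mul_assoc]
    refine mul_le_mul_of_nonneg_left ?_ (norm_nonneg _)
    calc ‖x i‖ ^ (n - (j + 1)) * ε ^ (j + 1)
        ≤ ‖x i‖ ^ (n - (j + 1)) * ‖x i‖ ^ (j + 1) :=
          mul_le_mul_of_nonneg_left (pow_le_pow_left₀ hε.le hge _) (pow_nonneg hpos.le _)
      _ = ‖x i‖ ^ n := by rw [← pow_add, Nat.sub_add_cancel hjn]
  have := pow_pos hpos n
  nlinarith

end Fermat.Agent.Hecke
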