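import Fermat.Agent.Hecke.NormPoly
import Fermat.Agent.Hecke.Division
import Fermat.Prelude.Thm_ModularForm_sturm_bound_Gamma0

/-!
Conjugates of cusp forms on `Gamma0 N` under automorphisms of `ℂ` acting on q-expansions.
-/

set_option autoImplicit false

noncomputable section

open UpperHalfPlane Function ModularForm CongruenceSubgroup
open scoped MatrixGroups Manifold

namespace Fermat.Agent.Hecke

variable {N : ℕ} [NeZero N]

theorem mapCoeff_ringHom (σ : ℂ →+* ℂ) (P : PowerSeries ℂ) :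
    mapCoeff σ.toAddMonoidHom P = PowerSeries.map σ P := by
  ext n; simp

theorem map_intSeries (σ : ℂ →+* ℂ) {P : PowerSeries ℂ} (hP : P ∈ intSeries) :
    PowerSeries.map σ P = P := by
  obtain ⟨Q, rfl⟩ := hP
  ext n
  simp

theorem map_qExp_scaledDelta_pow (σ : ℂ →+* ℂ) (r : ℕ) :
    PowerSeries.map σ (qExp (scaledDelta N ^ r)) = qExp (scaledDelta N ^ r) := by
  refine map_intSeries σ ?_
  rw [map_pow]
  exact intSeries.pow_mem (qExp_scaledDelta_int (NeZero.ne N)) r

theorem sturm_levelN {W : ℤ} {F : qFunctions} (hF : F ∈ levelN N W)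
    (h : ∀ n : ℕ, n ≤ (W * (Gamma0 N).index).toNat / 12 → (qExp F).coeff n = 0) : F = 0 := by
  obtain ⟨f, rfl⟩ := hF
  rw [show f = 0 from ModularForm.sturm_bound_Gamma0 N f h, map_zero]

/-- The truncated q-expansion. -/
def truncQ (b : ℕ) : qFunctions →ₗ[ℂ] (Fin (b + 1) → ℂ) where
  toFun F i := (qExp F).coeff i
  map_add' F G := by funext i; simp
  map_smul' c F := by funext i; simp

theorem truncQ_injective_levelN (W : ℤ) :
    Injective ((truncQ ((W * (Gamma0 N).index).toNat / 12)).domRestrict (levelN N W)) := by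
  rw [injective_iff_map_eq_zero]
  rintro ⟨F, hF⟩ h
  refine Subtype.ext (sturm_levelN hF fun n hn => ?_)
  exact congrFun h ⟨n, Nat.lt_succ_of_le hn⟩

instance finiteDimensional_levelN (W : ℤ) : FiniteDimensional ℂ (levelN N W) :=
  FiniteDimensional.of_injective _ (truncQ_injective_levelN (N := N) W)

theorem finrank_levelN_le (W : ℤ) :
    Module.finrank ℂ (levelN N W) ≤ (W * (Gamma0 N).index).toNat / 12 + 1 := by
  have := LinearMap.finrank_le_finrank_of_injective (truncQ_injective_levelN (N := N) W)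
  simpa using this

instance finiteDimensional_levelOne (w : ℤ) : FiniteDimensional ℂ (levelOne w) :=
  (LinearEquiv.ofInjective (toQ w) (toQ_injective w)).finiteDimensional

instance free_levelOne (w : ℤ) : Module.Free ℂ (levelOne w) :=
  Module.Free.of_divisionRing ℂ (levelOne w)

theorem le_finrank_levelOne {w : ℤ} (hw : Even w) (h0 : 0 ≤ w) :
    w.toNat / 12 ≤ Module.finrank ℂ (levelOne w) := by
  rw [show Module.finrank ℂ (levelOne w) = Module.finrank ℂ (ModularForm 𝒮ℒ w) from
    (LinearEquiv.ofInjective (toQ w) (toQ_injective w)).finrank_eq.symm]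
  lift w to ℕ using h0
  have := dimension_level_one w (by exact_mod_cast hw)
  rw [Int.toNat_natCast]
  split_ifs at this with h
  · exact (Module.finrank_eq_of_rank_eq this).ge
  · have h' : Module.rank ℂ (ModularForm 𝒮ℒ (w : ℤ)) = ((w / 12 + 1 : ℕ) : Cardinal) := by
      rw [this]
    rw [Module.finrank_eq_of_rank_eq h']
    omega

/-- A form on `Gamma0 N` is a quotient of a combination of powers of `scaledDelta N` by a level
one form. -/
theorem exists_relation {k : ℕ} (hk : Even k) {F : qFunctions} (hF : F ∈ levelN N k) :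
    ∃ (M : ℕ) (a : qFunctions) (A : Fin (Fintype.card (Coset N)) → qFunctions),
      a ∈ levelOne (12 * M) ∧ a ≠ 0 ∧
      (∀ r : Fin (Fintype.card (Coset N)), A r ∈ levelOne ((k + 12 * M : ℤ) - 12 * (r : ℕ))) ∧
      a * F + ∑ r : Fin (Fintype.card (Coset N)), A r * scaledDelta N ^ (r : ℕ) = 0 := by
  classical
  set μ := Fintype.card (Coset N) with hμ
  set M := μ * k + μ * μ + μ + 2 with hM
  set W : ℤ := (k : ℤ) + 12 * M with hW
  let L : (levelOne (12 * (M : ℤ)) × (∀ r : Fin μ, levelOne (W - 12 * (r : ℕ)))) →ₗ[ℂ]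
      levelN N W :=
    { toFun := fun p => ⟨(p.1 : qFunctions) * F + ∑ r : Fin μ, (p.2 r : qFunctions) * scaledDelta N ^ (r : ℕ),
        add_mem (levelN_mul (by rw [hW]; ring) (levelOne_le_levelN _ p.1.2) hF)
          (Submodule.sum_mem _ fun r _ => levelN_mul (by rw [mul_comm ((r : ℕ) : ℤ)]; ring)
            (levelOne_le_levelN _ (p.2 r).2) (levelN_pow scaledDelta_mem _))⟩
      map_add' := fun p q => by
        refine Subtype.ext ?_
        simp only [Prod.fst_add, Prod.snd_add, Pi.add_apply, Submodule.coe_add, add_mul,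
          Finset.sum_add_distrib]
        abel
      map_smul' := fun c p => by
        refine Subtype.ext ?_
        simp only [Prod.smul_fst, Prod.smul_snd, Pi.smul_apply, Submodule.coe_smul,
          RingHom.id_apply, smul_add, Finset.smul_sum, smul_mul_assoc] }
  have hnotinj : ¬ Injective L := by
    intro hinj
    have h1 := LinearMap.finrank_le_finrank_of_injective hinj
    have h2 := h1.trans (finrank_levelN_le W)
    rw [Module.finrank_prod, Module.finrank_pi_fintype] at h2
    have hidx : ((Gamma0 N).index : ℤ) = μ := by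
      rw [hμ, Subgroup.index, Nat.card_eq_fintype_card]
    rw [hidx] at h2
    have hz : M ≤ Module.finrank ℂ (levelOne (12 * (M : ℤ))) := by
      refine le_trans ?_ (le_finrank_levelOne (even_iff_two_dvd.mpr ⟨6 * (M : ℤ), by ring⟩) (by positivity))
      omega
    have hs : μ * (M - μ) ≤ ∑ r : Fin μ, Module.finrank ℂ (levelOne (W - 12 * (r : ℕ))) := by
      have : ∑ _r : Fin μ, (M - μ) ≤ ∑ r : Fin μ, Module.finrank ℂ (levelOne (W - 12 * (r : ℕ))) := by
        refine Finset.sum_le_sum fun r _ => ?_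
        have hr := r.2
        refine le_trans ?_ (le_finrank_levelOne ?_ ?_)
        · rw [hW]; omega
        · obtain ⟨c, hc⟩ := hk
          exact ⟨(c : ℤ) + 6 * M - 6 * (r : ℕ), by rw [hW, hc]; push_cast; ring⟩
        · rw [hW]; omega
      simpa using this
    have hrhs : (W * (μ : ℤ)).toNat / 12 ≤ μ * k + μ * M := by
      rw [show (W * (μ : ℤ)).toNat = μ * k + 12 * (μ * M) by
        rw [show W * (μ : ℤ) = ((μ * k + 12 * (μ * M) : ℕ) : ℤ) by rw [hW]; push_cast; ring,
          Int.toNat_natCast]]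
      omega
    have hsub : μ * (M - μ) + μ * μ = μ * M := by
      rw [← mul_add, Nat.sub_add_cancel (by omega)]
    omega
  rw [injective_iff_map_eq_zero] at hnotinj
  push Not at hnotinj
  obtain ⟨⟨a, A⟩, hker, hne⟩ := hnotinj
  have hker' : (a : qFunctions) * F + ∑ r : Fin μ, (A r : qFunctions) * scaledDelta N ^ (r : ℕ) = 0 :=
    congrArg Subtype.val hker
  refine ⟨M, a, fun r => A r, a.2, ?_, fun r => (A r).2, hker'⟩
  intro ha
  rw [ha, zero_mul, zero_add] at hker'
  have := scaledDelta_pow_independent W (fun r => (A r : qFunctions)) (fun r => (A r).2) hker'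
  exact hne (Prod.ext (Subtype.ext ha) (funext fun r => Subtype.ext (congrFun this r)))

/-- The conjugate of a cusp form by a ring endomorphism of `ℂ` acting on the coefficients. -/
theorem exists_conjugate (σ : ℂ →+* ℂ) {k : ℕ} (hk : Even k) {F : qFunctions}
    (hF : F ∈ levelN N k) (hcusp : ∀ δ : SL(2, ℤ), IsZeroAtImInfty ((F : ℍ → ℂ) ∣[(k : ℤ)] δ)) :
    ∃ G : qFunctions, G ∈ levelN N k ∧
      (∀ δ : SL(2, ℤ), IsZeroAtImInfty ((G : ℍ → ℂ) ∣[(k : ℤ)] δ)) ∧
      qExp G = PowerSeries.map σ (qExp F) := by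
  classical
  set μ := Fintype.card (Coset N) with hμdef
  have hμ : 0 < μ := Fintype.card_pos
  obtain ⟨M, a, A, ha, ha0, hA, hrel⟩ := exists_relation hk hF
  obtain ⟨aσ, haσ, haσq, -⟩ := exists_mapCoeff_levelOne ha σ.toAddMonoidHom
  rw [mapCoeff_ringHom] at haσq
  have hAσ := fun r => exists_mapCoeff_levelOne (hA r) σ.toAddMonoidHom
  simp only [mapCoeff_ringHom] at hAσ
  choose Aσ hAσ hAσq _h using hAσ
  choose E hE hEeq using fun j => esymFun_mem F hF j
  have hEσ := fun j => exists_mapCoeff_levelOne (hE j) σ.toAddMonoidHom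
  simp only [mapCoeff_ringHom] at hEσ
  choose Eσ hEσ hEσq _h using hEσ
  have hinj : Injective (PowerSeries.map σ) := PowerSeries.map_injective σ σ.injective
  have haσ0 : aσ ≠ 0 := by
    intro h0
    rw [h0, map_zero, eq_comm, ← map_zero (PowerSeries.map σ)] at haσq
    exact ha0 (qExp_injective ((hinj haσq).trans (map_zero qExp).symm))
  obtain ⟨hE0, hErel⟩ := esymFun_relation (F : ℍ → ℂ) (fun _ h => levelN_slash hF h)
  have hE0' : E 0 = 1 := Subtype.ext ((hEeq 0).trans hE0)
  have hErel' : ∑ j ∈ Finset.range (μ + 1), E j * F ^ (μ - j) = 0 := by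
    refine Subtype.ext ?_
    simp only [AddSubmonoidClass.coe_finsetSum, MulMemClass.coe_mul, SubmonoidClass.coe_pow,
      hEeq, ZeroMemClass.coe_zero]
    exact hErel
  have hEσ0 : Eσ 0 = 1 := qExp_injective (by rw [hEσq, hE0', map_one, map_one])
  let R : qFunctions := -∑ r : Fin μ, Aσ r * scaledDelta N ^ (r : ℕ)
  have hRq : qExp R = PowerSeries.map σ (qExp (a * F)) := by
    have h1 : qExp (a * F) = -∑ r : Fin μ, qExp (A r * scaledDelta N ^ (r : ℕ)) := by
      rw [← map_sum, ← map_neg, eq_neg_of_add_eq_zero_left hrel]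
    rw [h1, map_neg, map_sum, map_neg, map_sum]
    congr 1
    refine Finset.sum_congr rfl fun r _ => ?_
    rw [map_mul, map_mul, map_mul, hAσq, map_qExp_scaledDelta_pow]
  have hRmem : R ∈ levelN N ((k : ℤ) + 12 * M) :=
    neg_mem (Submodule.sum_mem _ fun r _ => levelN_mul (by rw [mul_comm ((r : ℕ) : ℤ)]; ring)
      (levelOne_le_levelN _ (hAσ r)) (levelN_pow scaledDelta_mem _))
  have hid : ∑ j ∈ Finset.range (μ + 1), Eσ j * R ^ (μ - j) * aσ ^ j = 0 := by
    apply qExp_injective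
    rw [map_zero, map_sum]
    have hcong : ∀ j ∈ Finset.range (μ + 1),
        qExp (Eσ j * R ^ (μ - j) * aσ ^ j) =
          PowerSeries.map σ (qExp a ^ μ * (qExp (E j * F ^ (μ - j)))) := by
      intro j hj
      rw [map_mul, map_mul, map_pow, map_pow, hEσq, hRq, haσq, ← map_pow, ← map_pow, ← map_mul,
        ← map_mul]
      congr 1
      simp only [map_mul, map_pow, mul_pow]
      conv_rhs => rw [show μ = (μ - j) + j by have := Finset.mem_range.mp hj; omega, pow_add,
        Nat.add_sub_cancel]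
      ring
    rw [Finset.sum_congr rfl hcong, ← map_sum, ← Finset.mul_sum, ← map_sum, hErel', map_zero,
      mul_zero, map_zero]
  have hidτ : ∀ τ : ℍ, ∑ j ∈ Finset.range (μ + 1),
      (Eσ j : ℍ → ℂ) τ * (R : ℍ → ℂ) τ ^ (μ - j) * (aσ : ℍ → ℂ) τ ^ j = 0 := fun τ => by
    have := congrFun (congrArg Subtype.val hid) τ
    simpa [Finset.sum_apply] using this
  have haσfun : (aσ : ℍ → ℂ) ≠ 0 := fun h0 => haσ0 (Subtype.ext h0)
  let C : ℍ → ℝ := fun τ => 1 + ∑ j ∈ Finset.range μ, ‖(Eσ (j + 1) : ℍ → ℂ) τ‖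
  have hC : Continuous C :=
    continuous_const.add (continuous_finsetSum _ fun j _ => (continuous_of_mem _).norm)
  have hle : ∀ τ, ‖(R : ℍ → ℂ) τ‖ ≤ C τ * ‖(aσ : ℍ → ℂ) τ‖ := by
    intro τ
    by_cases h0 : (aσ : ℍ → ℂ) τ = 0
    · have h := hidτ τ
      rw [Finset.sum_eq_single_of_mem 0 (by simp) (fun j _ hj => by simp [h0, hj]), hEσ0] at h
      have : (R : ℍ → ℂ) τ = 0 := by simpa using (pow_eq_zero_iff hμ.ne').mp (by simpa using h)
      rw [this, h0]
      simp
    · have hx : ∑ j ∈ Finset.range (μ + 1),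
          (Eσ j : ℍ → ℂ) τ * ((R : ℍ → ℂ) τ / (aσ : ℍ → ℂ) τ) ^ (μ - j) = 0 := by
        refine mul_right_cancel₀ (pow_ne_zero μ h0) ?_
        rw [zero_mul, Finset.sum_mul, ← hidτ τ]
        refine Finset.sum_congr rfl fun j hj => ?_
        rw [div_pow, show (aσ : ℍ → ℂ) τ ^ μ = (aσ : ℍ → ℂ) τ ^ (μ - j) * (aσ : ℍ → ℂ) τ ^ j by
          rw [← pow_add, Nat.sub_add_cancel (by have := Finset.mem_range.mp hj; omega)]]
        field_simp
      have := norm_root_le hμ (fun j => (Eσ j : ℍ → ℂ) τ) (by simp [hEσ0]) hx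
      rw [norm_div, div_le_iff₀ (norm_pos_iff.mpr h0)] at this
      exact this
  obtain ⟨G, hG, hGa⟩ := exists_holo_div R.2.2.1 aσ.2.2.1 haσfun C hC hle
  have hGinv : ∀ γ ∈ Gamma0 N, G ∣[(k : ℤ)] γ = G := by
    intro γ hγ
    refine mul_right_cancel_holo (hG.slash (k : ℤ) _) hG aσ.2.2.1 haσfun ?_
    rw [hGa]
    conv_lhs => rw [← levelOne_slash haσ γ, ← mul_slash_SL2, hGa]
    exact levelN_slash hRmem hγ
  have hroot : ∑ j ∈ Finset.range (μ + 1), (Eσ j : ℍ → ℂ) * G ^ (μ - j) = 0 := by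
    have hmd : MDiff (∑ j ∈ Finset.range (μ + 1), (Eσ j : ℍ → ℂ) * G ^ (μ - j)) :=
      Finset.sum_induction _ (fun f : ℍ → ℂ => MDiff f) (fun _ _ => MDifferentiable.add)
        mdifferentiable_const fun j _ => (Eσ j).2.2.1.mul (hG.pow _)
    refine (eq_zero_or_eq_zero_of_holo_mul (G := (aσ : ℍ → ℂ) ^ μ) hmd
      (aσ.2.2.1.pow μ) ?_).resolve_right (pow_ne_zero μ haσfun)
    funext τ
    rw [Pi.mul_apply, Finset.sum_apply, Pi.zero_apply, Finset.sum_mul, ← hidτ τ]
    refine Finset.sum_congr rfl fun j hj => ?_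
    rw [← hGa]
    simp only [Pi.mul_apply, Pi.pow_apply, mul_pow]
    rw [show (aσ : ℍ → ℂ) τ ^ μ = (aσ : ℍ → ℂ) τ ^ (μ - j) * (aσ : ℍ → ℂ) τ ^ j by
      rw [← pow_add, Nat.sub_add_cancel (by have := Finset.mem_range.mp hj; omega)]]
    ring
  have hzero : ∀ δ : SL(2, ℤ), IsZeroAtImInfty (G ∣[(k : ℤ)] δ) := by
    intro δ
    refine tendsto_root_zero (n := μ) (fun j τ => (Eσ j : ℍ → ℂ) τ) (fun τ => by simp [hEσ0])
      (fun j hj0 _ => ?_) _ fun τ => ?_
    · refine (qExp_coeff_zero_eq_zero_iff (Eσ j)).mp ?_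
      rw [hEσq, PowerSeries.coeff_map, (qExp_coeff_zero_eq_zero_iff (E j)).mpr ?_, map_zero]
      rw [hEeq j]
      exact esymFun_zero_at_infty _ _ hcusp (by omega)
    · have h1 := congrArg (fun f : ℍ → ℂ => f ∣[((k : ℤ) * μ)] δ) hroot
      simp only [SlashAction.sum_slash, SlashAction.zero_slash] at h1
      have h2 := congrFun h1 τ
      rw [Finset.sum_apply, Pi.zero_apply] at h2
      rw [← h2]
      refine Finset.sum_congr rfl fun j hj => ?_
      conv_rhs => rw [show ((k : ℤ) * μ) = (k : ℤ) * j + (k : ℤ) * ((μ - j : ℕ) : ℤ) by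
        rw [← mul_add, ← Nat.cast_add, Nat.add_sub_cancel' (by have := Finset.mem_range.mp hj; omega)]]
      rw [mul_slash_SL2, levelOne_slash (hEσ j), pow_slash_SL]
      rfl
  let G' : SlashInvariantForm (Gamma0 N) (k : ℤ) :=
    { toFun := G
      slash_action_eq' := fun _ ⟨γ, hγ, hg⟩ => hg ▸ hGinv γ hγ }
  have hper : Periodic (G ∘ ofComplex) (1 : ℂ) := by
    exact_mod_cast SlashInvariantFormClass.periodic_comp_ofComplex G'
      (CongruenceSubgroup.one_mem_strictPeriods_Gamma0 N)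
  have hbdd : IsBoundedAtImInfty G := by
    have := (hzero 1).boundedAtFilter
    rwa [SlashAction.slash_one] at this
  let GQ : qFunctions := ⟨G, hper, hG, hbdd⟩
  refine ⟨GQ, mem_levelN_of GQ hGinv fun δ => (hzero δ).boundedAtFilter, hzero, ?_⟩
  have hmul : GQ * aσ = R := Subtype.ext hGa
  have h := congrArg qExp hmul
  rw [map_mul, haσq, hRq, map_mul, map_mul, mul_comm (qExp GQ)] at h
  exact mul_left_cancel₀ (fun h0 => haσ0 (qExp_injective (by rw [haσq, h0, map_zero]))) h

end Fermat.Agent.Hecke
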