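import Mathlib.NumberTheory.ModularForms.QExpansion
import Mathlib.NumberTheory.ModularForms.LevelOne.Basic
import Mathlib.RingTheory.PowerSeries.Basic

/-!
The algebra of one-periodic holomorphic functions on the upper half plane bounded at infinity,
with its q-expansion homomorphism.
-/

set_option autoImplicit false

noncomputable section

open UpperHalfPlane Function ModularForm
open scoped Manifold MatrixGroups

namespace Fermat.Agent.Hecke

/-- One-periodic, holomorphic, bounded at infinity. -/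
def qFunctions : Subalgebra ℂ (ℍ → ℂ) where
  carrier := {F | Periodic (F ∘ ofComplex) (1 : ℂ) ∧ MDiff F ∧ IsBoundedAtImInfty F}
  mul_mem' {F G} hF hG := ⟨fun z => congrArg₂ (· * ·) (hF.1 z) (hG.1 z),
    hF.2.1.mul hG.2.1, hF.2.2.mul hG.2.2⟩
  add_mem' {F G} hF hG := ⟨fun z => congrArg₂ (· + ·) (hF.1 z) (hG.1 z),
    hF.2.1.add hG.2.1, hF.2.2.add hG.2.2⟩
  algebraMap_mem' c := ⟨fun _ => rfl, mdifferentiable_const, Filter.const_boundedAtFilter _ c⟩

theorem mem_qFunctions {F : ℍ → ℂ} :
    F ∈ qFunctions ↔ Periodic (F ∘ ofComplex) (1 : ℂ) ∧ MDiff F ∧ IsBoundedAtImInfty F := Iff.rfl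

theorem analyticAt_cusp_of_mem {F : ℍ → ℂ} (hF : F ∈ qFunctions) :
    AnalyticAt ℂ (cuspFunction 1 F) 0 :=
  analyticAt_cuspFunction_zero one_pos (by exact_mod_cast hF.1) hF.2.1 hF.2.2

/-- The q-expansion as an algebra homomorphism. -/
def qExp : qFunctions →ₐ[ℂ] PowerSeries ℂ where
  toFun F := qExpansion 1 (F : ℍ → ℂ)
  map_one' := qExpansion_one 1
  map_mul' F G := qExpansion_mul (analyticAt_cusp_of_mem F.2) (analyticAt_cusp_of_mem G.2)
  map_zero' := qExpansion_zero 1
  map_add' F G := qExpansion_add (analyticAt_cusp_of_mem F.2) (analyticAt_cusp_of_mem G.2)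
  commutes' c := by
    show qExpansion 1 (((algebraMap ℂ qFunctions c : qFunctions) : ℍ → ℂ)) = _
    rw [show (((algebraMap ℂ qFunctions c : qFunctions) : ℍ → ℂ)) = c • (1 : ℍ → ℂ) from
      Algebra.algebraMap_eq_smul_one c]
    rw [qExpansion_smul (analyticAt_cusp_of_mem (one_mem qFunctions)), qExpansion_one,
      Algebra.algebraMap_eq_smul_one]

theorem qExp_apply (F : qFunctions) : qExp F = qExpansion 1 (F : ℍ → ℂ) := rfl

theorem qExp_injective : Injective qExp := by
  rw [injective_iff_map_eq_zero]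
  intro F hF
  exact Subtype.ext ((qExpansion_eq_zero_iff one_pos (by exact_mod_cast F.2.1) F.2.2.1 F.2.2.2).mp hF)

theorem qExp_eq_iff {F G : qFunctions} : qExp F = qExp G ↔ F = G := qExp_injective.eq_iff

variable {k : ℤ} {Γ : Subgroup (GL (Fin 2) ℝ)} {M : Type*} [FunLike M ℍ ℂ]

/-- A modular form with period one gives a member of `qFunctions`. -/
theorem coe_mem_qFunctions [ModularFormClass M Γ k] (hΓ : (1 : ℝ) ∈ Γ.strictPeriods) (f : M) :
    (⇑f : ℍ → ℂ) ∈ qFunctions := by
  have : Fact (IsCusp OnePoint.infty Γ) := ⟨Γ.isCusp_of_mem_strictPeriods one_pos hΓ⟩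
  exact ⟨by exact_mod_cast SlashInvariantFormClass.periodic_comp_ofComplex f hΓ,
    ModularFormClass.holo f, ModularFormClass.bdd_at_infty f⟩

theorem qExp_coeff_zero_eq_zero_iff (F : qFunctions) :
    (qExp F).coeff 0 = 0 ↔ IsZeroAtImInfty (F : ℍ → ℂ) := by
  rw [qExp_apply, qExpansion_coeff_zero one_pos (analyticAt_cusp_of_mem F.2)
    (by exact_mod_cast F.2.1)]
  refine ⟨fun h => ?_, fun h => h.valueAtInfty_eq_zero⟩
  have h1 := exp_decay_sub_atImInfty one_pos (by exact_mod_cast F.2.1) F.2.2.1 F.2.2.2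
  rw [h] at h1
  simp only [sub_zero] at h1
  refine h1.trans_tendsto ?_
  refine Real.tendsto_exp_atBot.comp ?_
  simp only [div_one]
  exact Filter.Tendsto.const_mul_atTop_of_neg (by nlinarith [Real.pi_pos]) Filter.tendsto_comap

end Fermat.Agent.Hecke
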