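import Fermat.Agent.Hecke.QCoeff
import Fermat.Agent.Hecke.LatticeFinite
import Fermat.Agent.Hecke.Eigenvector
import Fermat.Prelude.Def_CuspForm_IntegralLattice
import Fermat.Prelude.Def_FormalHecke_Eigensystem

/-!
The lifting lemma of Deligne and Serre for the weight two Hecke algebra modulo three.
-/

set_option autoImplicit false

noncomputable section

open CongruenceSubgroup ModularFormClass EisensteinWeightOne

namespace Fermat.Agent.Hecke

variable {N : ℕ} [NeZero N]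

local notation "S₂" => CuspForm (Gamma0 N) 2
local notation "𝕋" => CuspForm.heckeAlgebra N 2 (∅ : Set ℕ)

theorem qIntegralSet_iff (f : S₂) :
    f ∈ CuspForm.qIntegralSet N ↔ ∀ n : ℕ, ∃ m : ℤ, qCoeff ⇑f n = (m : ℂ) := by
  refine forall_congr' fun n => ?_
  rw [Subring.mem_bot]
  exact exists_congr fun m => eq_comm

theorem hasIntegralStructure_of_hasIntegralBasis (h : CuspForm.HasIntegralBasis N) :
    CuspForm.HasIntegralStructure N 2 := by
  refine eq_top_iff.mpr (le_of_eq_of_le h.symm (Submodule.span_mono fun f hf => ?_))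
  exact mem_intLattice_iff.mpr ((qIntegralSet_iff f).mp hf)

theorem bridgeProduct_coeff_congr (a : ℕ → ℤ) (n : ℕ) :
    (3 : ℤ) ∣ (bridgeProduct a).coeff n - a n := by
  have h1 : PowerSeries.map (Int.castRingHom (ZMod 3)) (e1Chi3In ℤ) = 1 := by
    ext m
    rw [PowerSeries.coeff_map, e1Chi3In, PowerSeries.coeff_map]
    rcases eq_or_ne m 0 with rfl | hm
    · simp [e1Chi3]
    · simp only [e1Chi3, PowerSeries.coeff_mk, if_neg hm, PowerSeries.coeff_one]
      rw [eq_intCast, eq_intCast]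
      push_cast
      rw [show (6 : ZMod 3) = 0 from by decide, zero_mul]
  rw [← Nat.cast_ofNat, ← ZMod.intCast_zmod_eq_zero_iff_dvd, Int.cast_sub, sub_eq_zero]
  have h2 : PowerSeries.map (Int.castRingHom (ZMod 3)) (bridgeProduct a) =
      PowerSeries.map (Int.castRingHom (ZMod 3)) (PowerSeries.mk a) := by
    rw [bridgeProduct, map_mul, h1, mul_one]
  have h3 := congrArg (PowerSeries.coeff n) h2
  rw [PowerSeries.coeff_map, PowerSeries.coeff_map, PowerSeries.coeff_mk] at h3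
  exact h3

theorem chiNegThree_congr (ℓ : ℕ) : (3 : ℤ) ∣ (ℓ : ℤ) - chiNegThree ℓ := by
  unfold chiNegThree
  split_ifs <;> omega

/-- `g` is three times an integral form. -/
def DivThree (g : S₂) : Prop :=
  ∃ h ∈ CuspForm.intLattice N 2, g = (3 : ℤ) • h

theorem divThree_of_coeff (g : S₂) (hg : ∀ n, ∃ m : ℤ, qCoeff ⇑g n = (3 * m : ℤ)) : DivThree g := by
  refine ⟨(3 : ℂ)⁻¹ • g, mem_intLattice_iff.mpr fun n => ?_, ?_⟩
  · obtain ⟨m, hm⟩ := hg n
    exact ⟨m, by rw [qCoeff_smul, hm]; push_cast; ring⟩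
  · rw [← Int.cast_smul_eq_zsmul ℂ, smul_smul]
    norm_num

theorem DivThree.add {g g' : S₂} (h : DivThree g) (h' : DivThree g') : DivThree (g + g') := by
  obtain ⟨x, hx, rfl⟩ := h
  obtain ⟨y, hy, rfl⟩ := h'
  exact ⟨x + y, add_mem hx hy, (smul_add _ _ _).symm⟩

theorem DivThree.zsmul {g : S₂} (h : DivThree g) (c : ℤ) : DivThree (c • g) := by
  obtain ⟨x, hx, rfl⟩ := h
  exact ⟨c • x, Submodule.smul_mem _ c hx, smul_comm c (3 : ℤ) x⟩

theorem DivThree.hecke {g : S₂} (h : DivThree g) (t : 𝕋) :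
    DivThree ((t : Module.End ℂ S₂) g) := by
  obtain ⟨x, hx, rfl⟩ := h
  exact ⟨(t : Module.End ℂ S₂) x,
    CuspForm.mem_intLattice_of_mem_heckeAlgebra one_le_two t.2 hx, map_zsmul _ _ _⟩

theorem divThree_zero : DivThree (0 : S₂) := ⟨0, zero_mem _, (smul_zero _).symm⟩

/-- The operators killing `f` modulo three. -/
def killIdeal (f : S₂) : Ideal 𝕋 where
  carrier := {t | DivThree ((t : Module.End ℂ S₂) f)}
  add_mem' {s t} hs ht := by
    show DivThree (((s + t : 𝕋) : Module.End ℂ S₂) f)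
    rw [Subalgebra.coe_add, LinearMap.add_apply]
    exact hs.add ht
  zero_mem' := by
    show DivThree (((0 : 𝕋) : Module.End ℂ S₂) f)
    rw [Subalgebra.coe_zero, LinearMap.zero_apply]
    exact divThree_zero
  smul_mem' c {t} ht := by
    show DivThree (((c * t : 𝕋) : Module.End ℂ S₂) f)
    rw [Subalgebra.coe_mul, Module.End.mul_apply]
    exact DivThree.hecke ht c

theorem mem_killIdeal {f : S₂} {t : 𝕋} :
    t ∈ killIdeal f ↔ DivThree ((t : Module.End ℂ S₂) f) := Iff.rfl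

theorem intCast_sub_apply (t : 𝕋) (c : ℤ) (f : S₂) :
    ((t - (c : 𝕋) : 𝕋) : Module.End ℂ S₂) f = (t : Module.End ℂ S₂) f - c • f := by
  rw [Subalgebra.coe_sub, LinearMap.sub_apply]
  congr 1

section Main

variable {a : ℕ → ℤ}

/-- A normalised eigenform produced from a character with a common eigenvector. -/
theorem exists_eigenform_smul_of_character {g : S₂} (hg : g ≠ 0) (χ : 𝕋 →+* ℂ)
    (hχ : ∀ t : 𝕋, (t : Module.End ℂ S₂) g = χ t • g) :
    ∃ f : S₂, f.IsNormalizedEigenform ∧ (∃ c : ℂ, c ≠ 0 ∧ f = c • g) ∧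
      ∀ (ℓ : ℕ) (hℓ : ℓ.Prime) (hℓN : ¬ ℓ ∣ N),
        qCoeff ⇑f ℓ = χ (CuspForm.heckeAlgebra.T hℓ hℓN (Set.notMem_empty ℓ)) := by
  classical
  set c : ℕ → ℂ := fun n => qCoeff ⇑g n
  have hc0 : c 0 = 0 := qCoeff_cusp_zero g
  let e : ℕ → ℂ := fun ℓ => if ℓ ∣ N then 0 else (ℓ : ℂ)
  let lam : ℕ → ℂ := fun ℓ => if hℓ : ℓ.Prime then
      (if hℓN : ℓ ∣ N then χ (CuspForm.heckeAlgebra.U hℓ hℓN (Set.notMem_empty ℓ))
       else χ (CuspForm.heckeAlgebra.T hℓ hℓN (Set.notMem_empty ℓ))) else 0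
  have hrel : ∀ ℓ : ℕ, ℓ.Prime → ∀ n : ℕ,
      c (n * ℓ) + (if ℓ ∣ n then e ℓ * c (n / ℓ) else 0) = lam ℓ * c n := by
    intro ℓ hℓ n
    by_cases hℓN : ℓ ∣ N
    · have h := hχ (CuspForm.heckeAlgebra.U hℓ hℓN (Set.notMem_empty ℓ))
      rw [CuspForm.heckeAlgebra.coe_U] at h
      have h' := congrArg (fun x : S₂ => qCoeff ⇑x n) h
      simp only [qCoeff_smul, qCoeff_heckeULin hℓ hℓN] at h'
      simp only [e, lam, dif_pos hℓ, dif_pos hℓN, if_pos hℓN, zero_mul, ite_self, add_zero]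
      exact h'
    · have h := hχ (CuspForm.heckeAlgebra.T hℓ hℓN (Set.notMem_empty ℓ))
      rw [CuspForm.heckeAlgebra.coe_T] at h
      have h' := congrArg (fun x : S₂ => qCoeff ⇑x n) h
      simp only [qCoeff_smul, qCoeff_heckeTLin hℓ hℓN] at h'
      simp only [e, lam, dif_pos hℓ, dif_neg hℓN, if_neg hℓN]
      rw [show ((2 : ℤ) - 1) = 1 by norm_num, zpow_one] at h'
      exact h'
  have hc1 : c 1 ≠ 0 := by
    intro h1
    refine hg (cuspForm_ext_qCoeff fun n => ?_)
    rw [qCoeff_zero_form]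
    show c n = 0
    induction n using Nat.strong_induction_on with
    | _ n IH =>
      rcases n with _ | _ | n
      · exact hc0
      · exact h1
      · have hp : (n + 2).minFac.Prime := Nat.minFac_prime (by omega)
        obtain ⟨m, hm⟩ := Nat.minFac_dvd (n + 2)
        have hm0 : 0 < m := by
          rcases Nat.eq_zero_or_pos m with rfl | h
          · simp at hm
          · exact h
        have hlt : m < n + 2 := by
          have := hp.two_le
          nlinarith
        have hr := hrel _ hp m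
        rw [mul_comm m, ← hm, IH m hlt,
          IH (m / (n + 2).minFac) (lt_of_le_of_lt (Nat.div_le_self _ _) hlt)] at hr
        simpa using hr
  refine ⟨(c 1)⁻¹ • g, ?_, ⟨(c 1)⁻¹, inv_ne_zero hc1, rfl⟩, ?_⟩
  · set b : ℕ → ℂ := fun n => qCoeff ⇑((c 1)⁻¹ • g) n
    have hb : ∀ n, b n = (c 1)⁻¹ * c n := fun n => qCoeff_smul _ g n
    have hb1 : b 1 = 1 := by rw [hb, inv_mul_cancel₀ hc1]
    have hbrel : ∀ ℓ : ℕ, ℓ.Prime → ∀ n : ℕ,
        b (ℓ * n) + (if ℓ ∣ n then e ℓ * b (n / ℓ) else 0) = b ℓ * b n := by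
      intro ℓ hℓ n
      have hlam : b ℓ = lam ℓ := by
        have h1 := hrel ℓ hℓ 1
        rw [one_mul, if_neg (by simpa using hℓ.ne_one), add_zero] at h1
        rw [hb, h1, mul_comm (lam ℓ), ← mul_assoc, inv_mul_cancel₀ hc1, one_mul]
      have hn := hrel ℓ hℓ n
      rw [hlam, hb n, hb (ℓ * n), hb (n / ℓ), mul_comm ℓ n]
      split_ifs at hn ⊢ <;> linear_combination (c 1)⁻¹ * hn
    have hmul : ∀ m n : ℕ, m.Coprime n → b (m * n) = b m * b n := by
      intro m
      induction m using Nat.strong_induction_on with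
      | _ m IH =>
        intro n hmn
        rcases m with _ | _ | m
        · rw [Nat.coprime_zero_left] at hmn
          rw [hmn, hb1, mul_one, mul_one]
        · rw [zero_add, one_mul, hb1, one_mul]
        · have hp : (m + 2).minFac.Prime := Nat.minFac_prime (by omega)
          set p := (m + 2).minFac with hpdef
          obtain ⟨m', hm'⟩ := Nat.minFac_dvd (m + 2)
          rw [← hpdef] at hm'
          have hm0 : 0 < m' := by
            rcases Nat.eq_zero_or_pos m' with rfl | h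
            · simp at hm'
            · exact h
          have hlt : m' < m + 2 := by
            have := hp.two_le
            nlinarith
          have hcop : m'.Coprime n := hmn.coprime_dvd_left ⟨p, by rw [hm', mul_comm]⟩
          have hpn : p.Coprime n := hmn.coprime_dvd_left ⟨m', hm'⟩
          show b ((m + 2) * n) = b (m + 2) * b n
          rw [hm', mul_assoc]
          have h1 := hbrel p hp (m' * n)
          have h2 := hbrel p hp m'
          rw [IH m' hlt n hcop] at h1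
          by_cases hdvd : p ∣ m'
          · rw [if_pos (hdvd.mul_right n), Nat.mul_comm m' n, Nat.mul_div_assoc n hdvd,
              Nat.mul_comm n (m' / p), IH (m' / p) (lt_of_le_of_lt (Nat.div_le_self _ _) hlt) n
              (hcop.coprime_dvd_left (Nat.div_dvd_of_dvd hdvd))] at h1
            rw [if_pos hdvd] at h2
            rw [Nat.mul_comm m' n]
            linear_combination h1 - (b n) * h2
          · have hdvd' : ¬ p ∣ m' * n := fun h =>
              (hp.dvd_mul.mp h).elim hdvd (fun h' => hp.ne_one (Nat.Coprime.eq_one_of_dvd hpn h'))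
            rw [if_neg hdvd'] at h1
            rw [if_neg hdvd] at h2
            linear_combination h1 - (b n) * h2
    refine ⟨hb1, hmul, fun p r hp hpN => ?_, fun p r hp hpN => ?_⟩
    · have h := hbrel p hp (p ^ (r + 1))
      rw [if_pos (dvd_pow_self p (Nat.succ_ne_zero r)), pow_succ' p r,
        Nat.mul_div_cancel_left _ hp.pos, show e p = (p : ℂ) from if_neg hpN] at h
      show b (p ^ (r + 2)) = b p * b (p ^ (r + 1)) - (p : ℂ) * b (p ^ r)
      rw [pow_succ' p (r + 1), pow_succ' p r]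
      linear_combination h
    · have h := hbrel p hp (p ^ (r + 1))
      rw [if_pos (dvd_pow_self p (Nat.succ_ne_zero r)), show e p = 0 from if_pos hpN] at h
      show b (p ^ (r + 2)) = b p * b (p ^ (r + 1))
      rw [pow_succ' p (r + 1)]
      linear_combination h
  · intro ℓ hℓ hℓN
    have h1 := hrel ℓ hℓ 1
    rw [one_mul, if_neg (by simpa using hℓ.ne_one), add_zero] at h1
    simp only [lam, dif_pos hℓ, dif_neg hℓN] at h1
    rw [qCoeff_smul]
    show (c 1)⁻¹ * c ℓ = _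
    rw [h1, mul_comm (χ _), ← mul_assoc, inv_mul_cancel₀ hc1, one_mul]

/-- A normalised eigenform with the good eigenvalues of a character with a common eigenvector. -/
theorem exists_eigenform_of_character {g : S₂} (hg : g ≠ 0) (χ : 𝕋 →+* ℂ)
    (hχ : ∀ t : 𝕋, (t : Module.End ℂ S₂) g = χ t • g) :
    ∃ f : S₂, f.IsNormalizedEigenform ∧
      ∀ (ℓ : ℕ) (hℓ : ℓ.Prime) (hℓN : ¬ ℓ ∣ N),
        qCoeff ⇑f ℓ = χ (CuspForm.heckeAlgebra.T hℓ hℓN (Set.notMem_empty ℓ)) :=
  (exists_eigenform_smul_of_character hg χ hχ).imp fun _ h => ⟨h.1, h.2.2⟩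

/-- The lifting lemma. -/
theorem exists_eigenform_congruent (h : CuspForm.HasIntegralBasis N)
    (heig : FormalHecke.IsEigensystem
      (fun ℓ => if ℓ ∣ N then 0 else ((chiNegThree ℓ : ℤ) : ℤ)) a)
    (hreal : CuspForm.IsLatticeRealized N a) :
    ∃ (f : S₂) (_ : f.IsNormalizedEigenform)
      (𝔪' : Ideal (integralClosure ℤ ℂ)), 𝔪'.IsMaximal ∧
      ((3 : ℕ) : integralClosure ℤ ℂ) ∈ 𝔪' ∧
      ∀ (ℓ : ℕ) (_ : ℓ.Prime) (_ : ¬ ℓ ∣ N),
        ∃ c : integralClosure ℤ ℂ, (c : ℂ) = ModularFormClass.qCoeff f ℓ ∧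
          c - (a ℓ : integralClosure ℤ ℂ) ∈ 𝔪' := by
  obtain ⟨F, hF, af, haf, hcong⟩ := hreal
  have hafa : ∀ n, (3 : ℤ) ∣ af n - a n := fun n => by
    have := dvd_add (hcong n) (bridgeProduct_coeff_congr a n)
    simpa using this
  -- every generator acts on `F` modulo three through `a`
  have hgen : ∀ (ℓ : ℕ) (hℓ : ℓ.Prime), ∀ t : 𝕋,
      (∀ n, qCoeff ⇑((t : Module.End ℂ S₂) F) n = qCoeff ⇑F (n * ℓ) +
        if ℓ ∣ n then (if ℓ ∣ N then 0 else (ℓ : ℂ)) * qCoeff ⇑F (n / ℓ) else 0) →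
      t - ((a ℓ : ℤ) : 𝕋) ∈ killIdeal F := by
    intro ℓ hℓ t ht
    rw [mem_killIdeal, intCast_sub_apply]
    refine divThree_of_coeff _ fun n => ?_
    let e : ℤ := if ℓ ∣ N then 0 else (ℓ : ℤ)
    let e' : ℤ := if ℓ ∣ N then 0 else chiNegThree ℓ
    have he : (3 : ℤ) ∣ e - e' := by
      simp only [e, e']
      split_ifs
      · simp
      · exact chiNegThree_congr ℓ
    have hA : a (ℓ * n) + e' * (if ℓ ∣ n then a (n / ℓ) else 0) = a ℓ * a n := by
      simpa [e'] using heig.2 ℓ hℓ n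
    obtain ⟨m, hm⟩ : (3 : ℤ) ∣
        af (n * ℓ) + (if ℓ ∣ n then e * af (n / ℓ) else 0) - a ℓ * af n := by
      rw [← Nat.cast_ofNat, ← ZMod.intCast_zmod_eq_zero_iff_dvd]
      have hz : ∀ i, ((af i : ℤ) : ZMod 3) = ((a i : ℤ) : ZMod 3) := fun i =>
        (ZMod.intCast_eq_intCast_iff_dvd_sub _ _ 3).mpr (by simpa using dvd_neg.mpr (hafa i))
      have hze : ((e : ℤ) : ZMod 3) = ((e' : ℤ) : ZMod 3) :=
        (ZMod.intCast_eq_intCast_iff_dvd_sub _ _ 3).mpr (by simpa using dvd_neg.mpr he)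
      have hAz := congrArg (Int.cast : ℤ → ZMod 3) hA
      push_cast at hAz
      by_cases hd : ℓ ∣ n
      · rw [if_pos hd] at hAz ⊢
        push_cast
        rw [hz, hz, hz, hze, mul_comm n ℓ]
        linear_combination hAz
      · rw [if_neg hd, mul_zero] at hAz
        rw [if_neg hd]
        push_cast
        rw [hz, hz, mul_comm n ℓ]
        linear_combination hAz
    refine ⟨m, ?_⟩
    rw [qCoeff_sub, qCoeff_intCast_smul, ht, ← hm]
    simp only [← haf, e]
    push_cast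
    split_ifs <;> simp
  have hall : ∀ t : 𝕋, ∃ c : ℤ, t - (c : 𝕋) ∈ killIdeal F := by
    rintro ⟨t, ht⟩
    induction ht using Algebra.adjoin_induction with
    | mem x hx =>
      rcases hx with ⟨ℓ, hℓ, hℓN, -, rfl⟩ | ⟨q, hqN, hq, -, rfl⟩
      · refine ⟨a ℓ, hgen ℓ hℓ _ fun n => ?_⟩
        rw [qCoeff_heckeTLin hℓ hℓN, if_neg hℓN, show ((2 : ℤ) - 1) = 1 by norm_num, zpow_one]
      · refine ⟨a q, hgen q hq _ fun n => ?_⟩
        rw [qCoeff_heckeULin hq hqN, if_pos hqN]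
        simp
    | algebraMap r =>
      refine ⟨r, ?_⟩
      convert (killIdeal F).zero_mem using 1
      exact Subtype.ext (by simp)
    | add x y hx hy ihx ihy =>
      obtain ⟨c, hc⟩ := ihx
      obtain ⟨d, hd⟩ := ihy
      refine ⟨c + d, ?_⟩
      convert (killIdeal F).add_mem hc hd using 1
      push_cast
      rw [sub_add_sub_comm]
      rfl
    | mul x y hx hy ihx ihy =>
      obtain ⟨c, hc⟩ := ihx
      obtain ⟨d, hd⟩ := ihy
      refine ⟨c * d, ?_⟩
      convert (killIdeal F).add_mem ((killIdeal F).mul_mem_right ⟨y, hy⟩ hc)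
        ((killIdeal F).mul_mem_left (c : 𝕋) hd) using 1
      push_cast
      rw [show (⟨x * y, mul_mem hx hy⟩ : 𝕋) = ⟨x, hx⟩ * ⟨y, hy⟩ from rfl]
      ring
  have h3 : ((3 : ℤ) : 𝕋) ∈ killIdeal F := by
    rw [mem_killIdeal]
    refine ⟨F, mem_intLattice_iff.mpr ((qIntegralSet_iff F).mp hF), ?_⟩
    rfl
  have h1 : (1 : 𝕋) ∉ killIdeal F := by
    rw [mem_killIdeal]
    rintro ⟨g, hg, hFg⟩
    obtain ⟨m, hm⟩ := mem_intLattice_iff.mp hg 1
    have e1 : qCoeff ⇑F 1 = 3 * (m : ℂ) := by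
      have := congrArg (fun x : S₂ => qCoeff ⇑x 1) hFg
      simp only [Subalgebra.coe_one, Module.End.one_apply, qCoeff_intCast_smul, hm] at this
      simpa using this
    have e2 : af 1 = 3 * m := by exact_mod_cast (haf 1).trans e1
    have := hafa 1
    rw [e2, heig.1] at this
    omega
  haveI hmax : (killIdeal F).IsMaximal := by
    refine Ideal.isMaximal_iff.mpr ⟨h1, fun J x hJ hx hxJ => ?_⟩
    obtain ⟨c, hc⟩ := hall x
    have hcJ : (c : 𝕋) ∈ J := by simpa using J.sub_mem hxJ (hJ hc)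
    have h3c : ¬ (3 : ℤ) ∣ c := by
      rintro ⟨d, rfl⟩
      refine hx ?_
      have := (killIdeal F).add_mem hc ((killIdeal F).mul_mem_right (d : 𝕋) h3)
      simpa using this
    obtain ⟨u, v, huv⟩ : IsCoprime (3 : ℤ) c := (Int.prime_three.coprime_iff_not_dvd).mpr h3c
    have := J.add_mem (J.mul_mem_left (u : 𝕋) (hJ h3)) (J.mul_mem_left (v : 𝕋) hcJ)
    rw [← Int.cast_mul, ← Int.cast_mul, ← Int.cast_add, huv, Int.cast_one] at this
    exact this
  have hstr := hasIntegralStructure_of_hasIntegralBasis h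
  haveI := finiteDimensional_of_hasIntegralStructure hstr
  haveI := moduleFinite_heckeAlgebra_of_hasIntegralStructure (N := N) one_le_two hstr (∅ : Set ℕ)
  obtain ⟨g, hg, χ, hχ, hker⟩ :=
    exists_eigenvector_ker_le (V := S₂) (CuspForm.heckeAlgebra N 2 (∅ : Set ℕ)).val.toRingHom
      Subtype.val_injective (killIdeal F)
  have hint : ∀ t : 𝕋, χ t ∈ integralClosure ℤ ℂ := fun t =>
    (Algebra.IsIntegral.isIntegral (R := ℤ) t).map χ.toIntAlgHom
  let φ : 𝕋 →+* integralClosure ℤ ℂ := χ.codRestrict (integralClosure ℤ ℂ) hint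
  letI : Algebra 𝕋 (integralClosure ℤ ℂ) := φ.toAlgebra
  haveI : IsScalarTower ℤ 𝕋 (integralClosure ℤ ℂ) :=
    IsScalarTower.of_algebraMap_eq' (RingHom.ext_int _ _)
  haveI : Algebra.IsIntegral 𝕋 (integralClosure ℤ ℂ) := ⟨fun x =>
    (Algebra.IsIntegral.isIntegral (R := ℤ) x).tower_top⟩
  have hkerφ : RingHom.ker (algebraMap 𝕋 (integralClosure ℤ ℂ)) ≤ killIdeal F := fun t ht =>
    hker (RingHom.mem_ker.mpr (congrArg Subtype.val (RingHom.mem_ker.mp ht)))
  obtain ⟨Q, hQ, hQc⟩ := Ideal.exists_ideal_over_maximal_of_isIntegral (killIdeal F) hkerφ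
  obtain ⟨f, hf, hfℓ⟩ := exists_eigenform_of_character hg χ hχ
  refine ⟨f, hf, Q, hQ, ?_, fun ℓ hℓ hℓN =>
    ⟨φ (CuspForm.heckeAlgebra.T hℓ hℓN (Set.notMem_empty ℓ)), (hfℓ ℓ hℓ hℓN).symm, ?_⟩⟩
  · have : φ ((3 : ℤ) : 𝕋) ∈ Q := by
      rw [← hQc] at h3
      exact h3
    rw [map_intCast] at this
    simpa using this
  · have hmem : CuspForm.heckeAlgebra.T hℓ hℓN (Set.notMem_empty ℓ) - ((a ℓ : ℤ) : 𝕋)
        ∈ killIdeal F := hgen ℓ hℓ _ fun n => by
      rw [CuspForm.heckeAlgebra.coe_T, qCoeff_heckeTLin hℓ hℓN, if_neg hℓN,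
        show ((2 : ℤ) - 1) = 1 by norm_num, zpow_one]
    have : φ (CuspForm.heckeAlgebra.T hℓ hℓN (Set.notMem_empty ℓ) - ((a ℓ : ℤ) : 𝕋)) ∈ Q := by
      rw [← hQc] at hmem
      exact hmem
    rwa [map_sub, map_intCast] at this

end Main

end Fermat.Agent.Hecke
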