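import Fermat.Agent.Hecke.ScaledDelta
import Mathlib.Algebra.Polynomial.Roots

/-!
The monic polynomial with level one coefficients killing a form on `Gamma0 N`, and linear
independence of powers of `scaledDelta N` over level one forms.
-/

set_option autoImplicit false

noncomputable section

open UpperHalfPlane Function ModularForm CongruenceSubgroup
open scoped MatrixGroups Manifold

namespace Fermat.Agent.Hecke

variable (N : ℕ)

/-- Cosets of `Gamma0 N`. -/
abbrev Coset : Type := SL(2, ℤ) ⧸ Gamma0 N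

instance [NeZero N] : (Gamma0 N).FiniteIndex :=
  IsCongruenceSubgroup.finiteIndex (Gamma0_is_congruence N)

instance [NeZero N] : Fintype (Coset N) := Fintype.ofFinite _

variable {N}

theorem prod_slash_SL {ι : Type*} (k : ℤ) (γ : SL(2, ℤ)) (s : Finset ι) (f : ι → ℍ → ℂ) :
    (∏ i ∈ s, f i) ∣[k * (s.card : ℤ)] γ = ∏ i ∈ s, f i ∣[k] γ := by
  rw [SL_slash, ModularForm.prod_slash]
  simp [SL_slash]

theorem pow_slash_SL (k : ℤ) (γ : SL(2, ℤ)) (f : ℍ → ℂ) (n : ℕ) :
    (f ^ n) ∣[k * (n : ℤ)] γ = (f ∣[k] γ) ^ n := by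
  simpa using prod_slash_SL k γ (Finset.range n) (fun _ => f)

/-- The conjugates of a form over the modular group, indexed by cosets. -/
def conjFun {w : ℤ} (F : ℍ → ℂ) (hF : ∀ γ ∈ Gamma0 N, F ∣[w] γ = F) : Coset N → (ℍ → ℂ) :=
  Quotient.lift (fun δ : SL(2, ℤ) => F ∣[w] δ⁻¹) fun δ δ' h => by
    have hj : δ⁻¹ * δ' ∈ Gamma0 N := QuotientGroup.leftRel_apply.mp h
    have h1 := hF _ ((Gamma0 N).inv_mem hj)
    rw [mul_inv_rev, inv_inv] at h1
    show F ∣[w] δ⁻¹ = F ∣[w] δ'⁻¹
    conv_lhs => rw [← h1]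
    rw [← SlashAction.slash_mul, mul_assoc, mul_inv_cancel, mul_one]

theorem conjFun_mk {w : ℤ} (F : ℍ → ℂ) (hF : ∀ γ ∈ Gamma0 N, F ∣[w] γ = F) (δ : SL(2, ℤ)) :
    conjFun F hF (δ : Coset N) = F ∣[w] δ⁻¹ := rfl

theorem conjFun_slash {w : ℤ} (F : ℍ → ℂ) (hF : ∀ γ ∈ Gamma0 N, F ∣[w] γ = F) (γ : SL(2, ℤ))
    (q : Coset N) : conjFun F hF q ∣[w] γ = conjFun F hF (γ⁻¹ • q) := by
  induction q using QuotientGroup.induction_on with
  | H δ =>
    rw [conjFun_mk, ← SlashAction.slash_mul]
    show _ = conjFun F hF ((γ⁻¹ * δ : SL(2, ℤ)) : Coset N)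
    rw [conjFun_mk, mul_inv_rev, inv_inv]

variable [NeZero N]

/-- Signed elementary symmetric functions of the conjugates. -/
def esymFun {w : ℤ} (F : ℍ → ℂ) (hF : ∀ γ ∈ Gamma0 N, F ∣[w] γ = F) (j : ℕ) : ℍ → ℂ :=
  ∑ t ∈ (Finset.univ : Finset (Coset N)).powersetCard j, ∏ q ∈ t, -conjFun F hF q

theorem esymFun_slash {w : ℤ} (F : ℍ → ℂ) (hF : ∀ γ ∈ Gamma0 N, F ∣[w] γ = F) (j : ℕ)
    (γ : SL(2, ℤ)) : esymFun F hF j ∣[w * (j : ℤ)] γ = esymFun F hF j := by
  classical
  rw [esymFun, SlashAction.sum_slash]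
  let e : Coset N ≃ Coset N := MulAction.toPerm γ⁻¹
  refine Finset.sum_nbij' (fun t => t.map e.toEmbedding) (fun t => t.map e.symm.toEmbedding)
    ?_ ?_ ?_ ?_ ?_
  · intro t ht
    simpa [Finset.mem_powersetCard] using ht
  · intro t ht
    simpa [Finset.mem_powersetCard] using ht
  · intro t _
    simp [Finset.map_map]
  · intro t _
    simp [Finset.map_map]
  · intro t ht
    rw [Finset.mem_powersetCard] at ht
    rw [← ht.2, prod_slash_SL, Finset.prod_map]
    refine Finset.prod_congr rfl fun q _ => ?_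
    rw [SlashAction.neg_slash, conjFun_slash]
    rfl

theorem esymFun_mem {w : ℤ} (F : qFunctions) (hF : F ∈ levelN N w) (j : ℕ) :
    ∃ E : qFunctions, E ∈ levelOne (w * j) ∧
      (E : ℍ → ℂ) = esymFun (F : ℍ → ℂ) (fun _ h => levelN_slash hF h) j := by
  have hb : ∀ q : Coset N,
      IsBoundedAtImInfty (conjFun (F : ℍ → ℂ) (fun _ h => levelN_slash hF h) q) := by
    intro q
    induction q using QuotientGroup.induction_on with
    | H δ => exact levelN_bdd_slash hF δ⁻¹
  have hd : ∀ q : Coset N, MDiff (conjFun (F : ℍ → ℂ) (fun _ h => levelN_slash hF h) q) := by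
    intro q
    induction q using QuotientGroup.induction_on with
    | H δ => exact F.2.2.1.slash w _
  set hinv : ∀ γ ∈ Gamma0 N, (F : ℍ → ℂ) ∣[w] γ = (F : ℍ → ℂ) := fun _ h => levelN_slash hF h
  have hbE : IsBoundedAtImInfty (esymFun (F : ℍ → ℂ) hinv j) :=
    Finset.sum_induction _ IsBoundedAtImInfty (fun _ _ => Filter.BoundedAtFilter.add)
      (Filter.const_boundedAtFilter _ 0) fun t _ =>
      Finset.prod_induction _ IsBoundedAtImInfty (fun _ _ => Filter.BoundedAtFilter.mul)
        (Filter.const_boundedAtFilter _ 1) fun q _ => (hb q).neg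
  let f : ModularForm 𝒮ℒ (w * j) :=
    { toFun := esymFun (F : ℍ → ℂ) hinv j
      slash_action_eq' := fun _ ⟨γ, hg⟩ => hg ▸ esymFun_slash _ hinv j γ
      holo' := Finset.sum_induction _ (fun G : ℍ → ℂ => MDiff G) (fun _ _ => MDifferentiable.add)
        mdifferentiable_const fun t _ =>
        Finset.prod_induction _ (fun G : ℍ → ℂ => MDiff G) (fun _ _ => MDifferentiable.mul)
          mdifferentiable_const fun q _ => (hd q).neg
      bdd_at_cusps' := fun {c} hc => by
        rw [Subgroup.IsArithmetic.isCusp_iff_isCusp_SL2Z] at hc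
        rw [OnePoint.isBoundedAt_iff_forall_SL2Z hc]
        intro δ _
        rw [esymFun_slash _ hinv j δ]
        exact hbE }
  exact ⟨toQ _ f, ⟨f, rfl⟩, rfl⟩

theorem esymFun_zero_at_infty {w : ℤ} (F : ℍ → ℂ) (hF : ∀ γ ∈ Gamma0 N, F ∣[w] γ = F)
    (hz : ∀ δ : SL(2, ℤ), IsZeroAtImInfty (F ∣[w] δ)) {j : ℕ} (hj : j ≠ 0) :
    IsZeroAtImInfty (esymFun F hF j) := by
  refine Finset.sum_induction _ IsZeroAtImInfty (fun _ _ => Filter.ZeroAtFilter.add)
    tendsto_const_nhds fun t ht => ?_
  rw [Finset.mem_powersetCard] at ht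
  obtain ⟨q₀, hq₀⟩ := Finset.card_pos.mp (by omega : 0 < t.card)
  have : Filter.Tendsto (fun τ => ∏ q ∈ t, (-conjFun F hF q) τ) atImInfty
      (nhds (∏ q ∈ t, (0 : ℂ))) := by
    refine tendsto_finsetProd _ fun q _ => ?_
    induction q using QuotientGroup.induction_on with
    | H δ =>
      have h' : Filter.Tendsto (fun x => -(F ∣[w] δ⁻¹) x) atImInfty (nhds (-0)) :=
        Filter.Tendsto.neg (hz δ⁻¹)
      rw [neg_zero] at h'
      exact h'
  rw [Finset.prod_eq_zero hq₀ rfl] at this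
  unfold IsZeroAtImInfty Filter.ZeroAtFilter
  convert this using 2 with τ
  rw [Finset.prod_apply]

theorem esymFun_relation {w : ℤ} (F : ℍ → ℂ) (hF : ∀ γ ∈ Gamma0 N, F ∣[w] γ = F) :
    esymFun F hF 0 = 1 ∧
      ∑ j ∈ Finset.range (Fintype.card (Coset N) + 1),
        esymFun F hF j * F ^ (Fintype.card (Coset N) - j) = 0 := by
  classical
  refine ⟨by simp [esymFun], funext fun τ => ?_⟩
  have h1 : ∏ q : Coset N, ((-conjFun F hF q) τ + F τ) = 0 :=
    Finset.prod_eq_zero (Finset.mem_univ ((1 : SL(2, ℤ)) : Coset N)) (by simp [conjFun_mk])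
  rw [Finset.prod_add, Finset.sum_powerset] at h1
  simp only [Finset.sum_apply, Pi.mul_apply, Pi.pow_apply, Pi.zero_apply]
  rw [← h1]
  refine Finset.sum_congr (by rw [Finset.card_univ]) fun j _ => ?_
  rw [esymFun, Finset.sum_apply, Finset.sum_mul]
  refine Finset.sum_congr rfl fun t ht => ?_
  rw [Finset.prod_apply, Finset.prod_const, Finset.card_sdiff_of_subset (Finset.subset_univ t),
    (Finset.mem_powersetCard.mp ht).2, Finset.card_univ]

/-- Powers of `scaledDelta N` are independent over level one forms. -/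
theorem scaledDelta_pow_independent (W : ℤ) (A : Fin (Fintype.card (Coset N)) → qFunctions)
    (hA : ∀ r : Fin (Fintype.card (Coset N)), A r ∈ levelOne (W - 12 * (r : ℕ)))
    (h : ∑ r : Fin (Fintype.card (Coset N)), A r * scaledDelta N ^ (r : ℕ) = 0) : A = 0 := by
  classical
  set B := (scaledDelta N : ℍ → ℂ)
  have hB : ∀ γ ∈ Gamma0 N, B ∣[(12 : ℤ)] γ = B := fun _ hγ => levelN_slash scaledDelta_mem hγ
  set G := conjFun B hB
  have hinj : Injective G := by
    intro q q'
    induction q using QuotientGroup.induction_on with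
    | H δ =>
      induction q' using QuotientGroup.induction_on with
      | H δ' =>
        intro hqq
        refine QuotientGroup.eq.mpr (mem_Gamma0_of_scaledDelta_slash ?_)
        have : B ∣[(12 : ℤ)] δ⁻¹ = B ∣[(12 : ℤ)] δ'⁻¹ := hqq
        show B ∣[(12 : ℤ)] (δ⁻¹ * δ') = B
        rw [SlashAction.slash_mul, this, ← SlashAction.slash_mul, inv_mul_cancel,
          SlashAction.slash_one]
  have hd : ∀ q, MDiff (G q) := by
    intro q
    induction q using QuotientGroup.induction_on with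
    | H δ => exact (scaledDelta N).2.2.1.slash 12 _
  have hrel : ∀ q, ∑ r : Fin (Fintype.card (Coset N)), (A r : ℍ → ℂ) * G q ^ (r : ℕ) = 0 := by
    intro q
    induction q using QuotientGroup.induction_on with
    | H δ =>
      have h0 : ∑ r : Fin (Fintype.card (Coset N)), (A r : ℍ → ℂ) * B ^ (r : ℕ) = 0 := by
        have := congrArg Subtype.val h
        simpa using this
      have h1 := congrArg (fun f : ℍ → ℂ => f ∣[W] δ⁻¹) h0
      simp only [SlashAction.sum_slash, SlashAction.zero_slash] at h1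
      rw [← h1]
      refine Finset.sum_congr rfl fun r _ => ?_
      conv_rhs => rw [show W = (W - 12 * (r : ℕ)) + 12 * ((r : ℕ) : ℤ) by ring]
      rw [mul_slash_SL2, levelOne_slash (hA r), pow_slash_SL]
      rfl
  set D : ℍ → ℂ := ∏ p ∈ (Finset.univ : Finset (Coset N)).offDiag, (G p.1 - G p.2)
  have hD : MDiff D := Finset.prod_induction _ (fun f : ℍ → ℂ => MDiff f)
    (fun _ _ => MDifferentiable.mul) mdifferentiable_const fun p _ => (hd p.1).sub (hd p.2)
  have hD0 : D ≠ 0 := by
    refine (Finset.prod_induction _ (fun f : ℍ → ℂ => MDiff f ∧ f ≠ 0) ?_ ?_ ?_).2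
    · rintro f g ⟨hf, hf0⟩ ⟨hg, hg0⟩
      exact ⟨hf.mul hg, fun h0 => (eq_zero_or_eq_zero_of_holo_mul hf hg h0).elim hf0 hg0⟩
    · exact ⟨mdifferentiable_const, one_ne_zero⟩
    · intro p hp
      exact ⟨(hd p.1).sub (hd p.2),
        sub_ne_zero.mpr fun h0 => (Finset.mem_offDiag.mp hp).2.2 (hinj h0)⟩
  funext r
  refine Subtype.ext ?_
  have hmul : (A r : ℍ → ℂ) * D = 0 := by
    funext τ
    by_cases hDτ : D τ = 0
    · simp [hDτ]
    · have hinjτ : Injective fun q => G q τ := by
        intro q q' hqq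
        by_contra hne
        refine hDτ ?_
        simp only [D, Finset.prod_apply]
        exact Finset.prod_eq_zero (i := (q, q'))
          (Finset.mem_offDiag.mpr ⟨Finset.mem_univ q, Finset.mem_univ q', hne⟩)
          (by simpa using sub_eq_zero.mpr hqq)
      let p : Polynomial ℂ := ∑ i : Fin (Fintype.card (Coset N)), Polynomial.monomial (i : ℕ) ((A i : ℍ → ℂ) τ)
      have hp : p = 0 := by
        refine Polynomial.eq_zero_of_natDegree_lt_card_of_eval_eq_zero p hinjτ (fun q => ?_) ?_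
        · simpa [p, Polynomial.eval_finsetSum] using congrFun (hrel q) τ
        · rcases Nat.eq_zero_or_pos (Fintype.card (Coset N)) with h0 | h0
          · exact absurd h0 Fintype.card_ne_zero
          · refine lt_of_le_of_lt (Polynomial.natDegree_sum_le_of_forall_le _ _
              (n := Fintype.card (Coset N) - 1) fun i _ => ?_) (by omega)
            exact le_trans (Polynomial.natDegree_monomial_le _) (by omega)
      have hc : p.coeff r = (A r : ℍ → ℂ) τ := by
        simp only [p, Polynomial.finsetSum_coeff, Polynomial.coeff_monomial, Fin.val_inj]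
        simp
      rw [Pi.mul_apply, ← hc, hp, Polynomial.coeff_zero, zero_mul]
      rfl
  exact (eq_zero_or_eq_zero_of_holo_mul (A r).2.2.1 hD hmul).resolve_right hD0

end Fermat.Agent.Hecke
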