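import Fermat.Agent.Hecke.LevelForms
import Fermat.Agent.Hecke.QCoeff
import Fermat.Prelude.Thm_ModularForm_periodic_heckeT_comp_ofComplex
import Fermat.Prelude.Thm_ModularForm_periodic_heckeU_comp_ofComplex
import Fermat.Prelude.Thm_ModularForm_isBoundedAtImInfty_heckeT
import Fermat.Prelude.Thm_ModularForm_isBoundedAtImInfty_heckeU

/-!
The form `1728 * Δ(N τ)` on `Gamma0 N`: integral coefficients, trivial stabiliser beyond `Gamma0 N`.
-/

set_option autoImplicit false

noncomputable section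

open UpperHalfPlane Function ModularForm CongruenceSubgroup ModularFormClass
open scoped MatrixGroups Manifold

namespace Fermat.Agent.Hecke

/-- The level one form `1728 Δ`. -/
def delta1728 : qFunctions := (1728 : ℂ) • delta

theorem delta1728_mem : delta1728 ∈ levelOne 12 := Submodule.smul_mem _ _ ⟨_, rfl⟩

theorem delta1728_int : qExp delta1728 ∈ intSeries := scaled_delta_int

theorem delta1728_apply (τ : ℍ) : (delta1728 : ℍ → ℂ) τ = 1728 * ModularForm.discriminant τ := rfl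

/-- A scalar multiple of `Δ(N τ)`. -/
def scaledDeltaFun (N : ℕ) : ℍ → ℂ := (delta1728 : ℍ → ℂ) ∣[(12 : ℤ)] heckeDiagMatrix N

theorem scaledDeltaFun_eq_sub (N : ℕ) :
    scaledDeltaFun N = heckeT 12 N (delta1728 : ℍ → ℂ) - heckeU 12 N (delta1728 : ℍ → ℂ) := by
  rw [heckeT_eq_heckeU_add, add_sub_cancel_left]
  rfl

theorem scaledDeltaFun_mem (N : ℕ) : scaledDeltaFun N ∈ qFunctions := by
  rw [scaledDeltaFun_eq_sub]
  refine qFunctions.sub_mem ?_ ?_
  · exact ⟨periodic_heckeT_comp_ofComplex delta1728.2.1 12 N,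
      mdifferentiable_heckeT delta1728.2.2.1 12 N,
      isBoundedAtImInfty_heckeT delta1728.2.2.2 12 N⟩
  · exact ⟨periodic_heckeU_comp_ofComplex delta1728.2.1 12 N,
      mdifferentiable_heckeU delta1728.2.2.1 12 N,
      isBoundedAtImInfty_heckeU delta1728.2.2.2 12 N⟩

/-- A scalar multiple of `Δ(N τ)` as a member of `qFunctions`. -/
def scaledDelta (N : ℕ) : qFunctions := ⟨scaledDeltaFun N, scaledDeltaFun_mem N⟩

theorem qExp_scaledDelta_int {N : ℕ} (hN : N ≠ 0) : qExp (scaledDelta N) ∈ intSeries := by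
  refine mem_intSeries.mpr fun n => ?_
  have h1 : (delta1728 : ℍ → ℂ) ∈ qFunctions := delta1728.2
  have hT : heckeT 12 N (delta1728 : ℍ → ℂ) ∈ qFunctions :=
    ⟨periodic_heckeT_comp_ofComplex delta1728.2.1 12 N,
      mdifferentiable_heckeT delta1728.2.2.1 12 N,
      isBoundedAtImInfty_heckeT delta1728.2.2.2 12 N⟩
  have hU : heckeU 12 N (delta1728 : ℍ → ℂ) ∈ qFunctions :=
    ⟨periodic_heckeU_comp_ofComplex delta1728.2.1 12 N,
      mdifferentiable_heckeU delta1728.2.2.1 12 N,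
      isBoundedAtImInfty_heckeU delta1728.2.2.2 12 N⟩
  have heq : scaledDelta N = ⟨_, hT⟩ - ⟨_, hU⟩ := Subtype.ext (scaledDeltaFun_eq_sub N)
  rw [heq, map_sub, map_sub]
  show ∃ m : ℤ, qCoeff (heckeT 12 N (delta1728 : ℍ → ℂ)) n -
    qCoeff (heckeU 12 N (delta1728 : ℍ → ℂ)) n = (m : ℂ)
  rw [UpperHalfPlane.qCoeff_heckeT delta1728.2.1 delta1728.2.2.1 delta1728.2.2.2 12 hN,
    UpperHalfPlane.qCoeff_heckeU delta1728.2.1 delta1728.2.2.1 delta1728.2.2.2 12 hN]
  obtain ⟨z, hz⟩ := mem_intSeries.mp delta1728_int (n / N)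
  rw [coeffHeckeT_eq_coeffHeckeU_add, add_sub_cancel_left]
  refine ⟨if N ∣ n then (N : ℤ) ^ 11 * z else 0, ?_⟩
  split_ifs
  · rw [show ((12 : ℤ) - 1) = ((11 : ℕ) : ℤ) by norm_num, zpow_natCast]
    push_cast
    rw [← hz]
    rfl
  · simp

theorem scaledDelta_mem {N : ℕ} [NeZero N] : scaledDelta N ∈ levelN N 12 := by
  refine mem_levelN_of _ (fun γ hγ => ?_) fun δ => ?_
  · obtain ⟨e, he⟩ := (ZMod.intCast_zmod_eq_zero_iff_dvd _ _).mp (Gamma0_mem.mp hγ)
    obtain ⟨g', -, hmul⟩ :=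
      P2MW.S_ModularForm_heckeT_slash_eq_self_of_mem_Gamma0.ModularForm.HeckeSlashInvariance.heckeDiagMatrix_mul_of_eq'
        (NeZero.ne N) γ e he
    show scaledDeltaFun N ∣[(12 : ℤ)] γ = scaledDeltaFun N
    rw [scaledDeltaFun, SL_slash, ← SlashAction.slash_mul]
    erw [hmul]
    rw [SlashAction.slash_mul]
    congr 1
    exact levelOne_slash delta1728_mem g'
  · show IsBoundedAtImInfty (scaledDeltaFun N ∣[(12 : ℤ)] δ)
    obtain ⟨f, hf⟩ := delta1728_mem
    have hf' : ⇑f = (delta1728 : ℍ → ℂ) := congrArg Subtype.val hf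
    have hc : IsCusp ((Matrix.SpecialLinearGroup.mapGL ℝ δ : GL (Fin 2) ℝ) • OnePoint.infty)
        (𝒮ℒ : Subgroup (GL (Fin 2) ℝ)) := by
      rw [isCusp_SL2Z_iff']
      exact ⟨δ, rfl⟩
    have hT := ModularFormClass.isBoundedAt_heckeT f N hc
    have hU := ModularFormClass.isBoundedAt_heckeU f N hc
    rw [hf'] at hT hU
    have hT' := hT (Matrix.SpecialLinearGroup.mapGL ℝ δ) rfl
    have hU' := hU (Matrix.SpecialLinearGroup.mapGL ℝ δ) rfl
    rw [scaledDeltaFun_eq_sub, SL_slash, sub_eq_add_neg, SlashAction.add_slash, SlashAction.neg_slash]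
    exact hT'.add hU'.neg

theorem tendsto_div_qParam :
    Filter.Tendsto (fun τ : ℍ => (delta1728 : ℍ → ℂ) τ / Periodic.qParam 1 τ) atImInfty
      (nhds 1728) := by
  have han := analyticAt_cusp_of_mem delta1728.2
  have hper : Periodic ((delta1728 : ℍ → ℂ) ∘ ofComplex) (1 : ℝ) := by exact_mod_cast delta1728.2.1
  have h0 : cuspFunction 1 (delta1728 : ℍ → ℂ) 0 = 0 := by
    have h := cuspFunction_apply_zero one_pos han hper
    rw [h, ← qExpansion_coeff_zero one_pos han hper, ← qExp_apply]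
    rw [delta1728, map_smul, map_smul, qExp_apply, delta, toQ_coe]
    simp only [smul_eq_mul]
    erw [CuspFormClass.qExpansion_coeff_zero CuspForm.discriminant one_pos one_mem_strictPeriods_SL]
    simp
  have h1 : deriv (cuspFunction 1 (delta1728 : ℍ → ℂ)) 0 = 1728 := by
    have : (qExp delta1728).coeff 1 = 1728 := by
      rw [delta1728, map_smul, map_smul, qExp_apply, delta, toQ_coe]
      simp only [smul_eq_mul]
      erw [discriminant_qExpansion_coeff_one]
      ring
    rw [qExp_apply, qExpansion_coeff] at this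
    simpa using this
  have hslope := hasDerivAt_iff_tendsto_slope.mp (han.differentiableAt.hasDerivAt.congr_deriv h1)
  have hq : Filter.Tendsto (fun τ : ℍ => Periodic.qParam 1 τ) atImInfty (nhdsWithin 0 {0}ᶜ) :=
    (Periodic.qParam_tendsto one_pos).comp tendsto_coe_atImInfty
  refine (hslope.comp hq).congr fun τ => ?_
  simp only [Function.comp_apply, slope, vsub_eq_sub, sub_zero, h0, smul_eq_mul]
  rw [eq_cuspFunction τ one_ne_zero hper, inv_mul_eq_div]

/-- The stabiliser of `Δ(N τ)` in the modular group is `Gamma0 N`. -/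
theorem mem_Gamma0_of_scaledDelta_slash {N : ℕ} [NeZero N] {δ : SL(2, ℤ)}
    (h : (scaledDelta N : ℍ → ℂ) ∣[(12 : ℤ)] δ = (scaledDelta N : ℍ → ℂ)) : δ ∈ Gamma0 N := by
  set a := δ 0 0 with ha
  set b := δ 0 1 with hb
  set c := δ 1 0 with hc
  set d := δ 1 1 with hd
  have hdet : a * d - b * c = 1 := by
    have := δ.det_coe
    rwa [Matrix.det_fin_two] at this
  have hN : (N : ℤ) ≠ 0 := Int.natCast_ne_zero.mpr (NeZero.ne N)
  have hgpos : 0 < Int.gcd ((N : ℤ) * a) c := by
    rw [Nat.pos_iff_ne_zero, Ne, Int.gcd_eq_zero_iff]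
    rintro ⟨h1, h2⟩
    rw [h2, (mul_eq_zero.mp h1).resolve_left hN] at hdet
    simp at hdet
  obtain ⟨g, hgdef⟩ : ∃ g : ℕ, g = Int.gcd ((N : ℤ) * a) c := ⟨_, rfl⟩
  have hg : (0 : ℤ) < g := by rw [hgdef]; exact_mod_cast hgpos
  obtain ⟨a', ha'⟩ : (g : ℤ) ∣ (N : ℤ) * a := hgdef ▸ Int.gcd_dvd_left _ _
  obtain ⟨c', hc'⟩ : (g : ℤ) ∣ c := hgdef ▸ Int.gcd_dvd_right _ _
  obtain ⟨x, y, hxy⟩ : IsCoprime a' c' := by
    rw [Int.isCoprime_iff_gcd_eq_one]
    have := Int.gcd_mul_left (g : ℤ) a' c'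
    rw [← ha', ← hc', Int.natAbs_natCast, ← hgdef] at this
    exact (Nat.mul_eq_left (by omega)).mp this.symm
  set D : ℤ := -c' * ((N : ℤ) ^ 2 * b) + a' * ((N : ℤ) * d) with hDdef
  set s : ℤ := x * ((N : ℤ) ^ 2 * b) + y * ((N : ℤ) * d) with hsdef
  have hDg : D * g = (N : ℤ) ^ 2 := by
    rw [hDdef]
    linear_combination (N : ℤ) ^ 2 * b * hc' - (N : ℤ) * d * ha' + (N : ℤ) ^ 2 * hdet
  have hD : 0 < D := by
    have : 0 < D * g := hDg ▸ by positivity
    exact pos_of_mul_pos_left this hg.le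
  let γ : SL(2, ℤ) := ⟨!![a', -y; c', x], by rw [Matrix.det_fin_two_of]; linear_combination hxy⟩
  -- the transformation law deduced for `1728 Δ`
  have key : ∀ z w : ℍ, (w : ℂ) = ((g : ℂ) * z + (s : ℂ)) / (D : ℂ) →
      (delta1728 : ℍ → ℂ) w = ((D : ℂ) / N) ^ 12 * (delta1728 : ℍ → ℂ) z := by
    intro z w hw
    have hNC : (N : ℂ) ≠ 0 := Nat.cast_ne_zero.mpr (NeZero.ne N)
    have hDC : (D : ℂ) ≠ 0 := Int.cast_ne_zero.mpr hD.ne'
    let τ : ℍ := ⟨(z : ℂ) / N, by
      simpa using div_pos z.im_pos (Nat.cast_pos.mpr (Nat.pos_of_ne_zero (NeZero.ne N)))⟩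
    have hτ : (τ : ℂ) = (z : ℂ) / N := rfl
    have hz : heckeDiagMatrix N • τ = z := by
      refine UpperHalfPlane.ext ?_
      rw [coe_heckeDiagMatrix_smul (NeZero.ne N), hτ]
      field_simp
    have hden : (c' : ℂ) * w + x ≠ 0 := by
      have := UpperHalfPlane.denom_ne_zero γ w
      rw [ModularGroup.denom_apply] at this
      simpa [γ] using this
    have hcd : (c : ℂ) * τ + d ≠ 0 := by
      have := UpperHalfPlane.denom_ne_zero δ τ
      rw [ModularGroup.denom_apply] at this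
      simpa [← hc, ← hd] using this
    have e_a : (N : ℂ) * a = (g : ℂ) * a' := by exact_mod_cast ha'
    have e_c : (c : ℂ) = (g : ℂ) * c' := by exact_mod_cast hc'
    have e_D : (D : ℂ) = -(c' : ℂ) * ((N : ℂ) ^ 2 * b) + a' * ((N : ℂ) * d) := by
      exact_mod_cast hDdef
    have e_s : (s : ℂ) = (x : ℂ) * ((N : ℂ) ^ 2 * b) + y * ((N : ℂ) * d) := by
      exact_mod_cast hsdef
    have e_xy : (x : ℂ) * a' + y * c' = 1 := by exact_mod_cast hxy
    have hden' : (c' : ℂ) * w + x = (N : ℂ) / D * ((c : ℂ) * τ + d) := by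
      rw [hw, hτ]
      field_simp
      linear_combination (c' : ℂ) * e_s + (x : ℂ) * e_D + ((N : ℂ) * d) * e_xy - (z : ℂ) * e_c
    have hsmul : heckeDiagMatrix N • (δ • τ) = γ • w := by
      refine UpperHalfPlane.ext ?_
      rw [coe_heckeDiagMatrix_smul (NeZero.ne N), UpperHalfPlane.coe_specialLinearGroup_apply,
        UpperHalfPlane.coe_specialLinearGroup_apply]
      simp only [algebraMap_int_eq, eq_intCast, Complex.ofReal_intCast, γ, Matrix.of_apply,
        Matrix.cons_val_zero, Matrix.cons_val_one, Matrix.cons_val', Matrix.empty_val',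
        Matrix.cons_val_fin_one, ← ha, ← hb, ← hc, ← hd, Int.cast_neg, Complex.ofReal_neg]
      have hnum : (a' : ℂ) * w + -(y : ℂ) = (N : ℂ) / D * ((N : ℂ) * ((a : ℂ) * τ + b)) := by
        rw [hw, hτ]
        field_simp
        linear_combination (a' : ℂ) * e_s - (y : ℂ) * e_D + ((N : ℂ) ^ 2 * b) * e_xy
          - (z : ℂ) * e_a
      rw [hnum, hden', mul_div_mul_left _ _ (div_ne_zero hNC hDC), mul_div_assoc]
    have h' := congrFun h τ
    have e1 : ∀ u : ℍ, (scaledDelta N : ℍ → ℂ) u =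
        (N : ℂ) ^ ((12 : ℤ) - 1) * (delta1728 : ℍ → ℂ) (heckeDiagMatrix N • u) := fun u =>
      slash_heckeDiagMatrix_apply 12 (NeZero.ne N) _ u
    rw [SL_slash_apply, e1, e1, hsmul, hz] at h'
    have hγ := congrFun (levelOne_slash delta1728_mem γ) w
    rw [SL_slash_apply] at hγ
    have hdenγ : denom γ w = (c' : ℂ) * w + x := by rw [ModularGroup.denom_apply]; simp [γ]
    have hdenδ : denom δ τ = (c : ℂ) * τ + d := by rw [ModularGroup.denom_apply]
    rw [hdenγ] at hγ
    rw [hdenδ] at h'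
    rw [zpow_neg, show ((12 : ℤ)) = ((12 : ℕ) : ℤ) from rfl, zpow_natCast] at hγ h'
    have hW : (delta1728 : ℍ → ℂ) w =
        (delta1728 : ℍ → ℂ) (γ • w) * (((c' : ℂ) * w + x) ^ 12)⁻¹ := hγ.symm
    have hpow : (N : ℂ) ^ (((12 : ℕ) : ℤ) - 1) ≠ 0 := zpow_ne_zero _ hNC
    have hG : (delta1728 : ℍ → ℂ) (γ • w) =
        (delta1728 : ℍ → ℂ) z * ((c : ℂ) * τ + d) ^ 12 := by
      have := pow_ne_zero 12 hcd
      field_simp at h'
      linear_combination h'
    rw [hW, hG, hden', mul_pow, mul_inv, div_pow, div_pow]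
    have := pow_ne_zero 12 hcd
    field_simp
  -- compare the decay at infinity
  have hgD : (g : ℤ) = D := by
    by_contra hne
    let k : ℝ := 2 * Real.pi * (1 - (g : ℝ) / D)
    have hk : k ≠ 0 := by
      refine mul_ne_zero (by positivity) (sub_ne_zero.mpr ?_)
      intro h1
      rw [eq_div_iff (by exact_mod_cast hD.ne' : (D : ℝ) ≠ 0), one_mul] at h1
      exact hne (by exact_mod_cast h1.symm)
    let zpt : ℝ → ℍ := fun t => ofComplex (t * Complex.I)
    have hzpt : ∀ {t : ℝ}, 0 < t → ((zpt t : ℍ) : ℂ) = t * Complex.I := fun {t} ht => by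
      simp only [zpt, ofComplex_apply_of_im_pos (show 0 < ((t : ℂ) * Complex.I).im by simpa using ht)]
    let wpt : ℝ → ℍ := fun t => ofComplex (((g : ℂ) * (t * Complex.I) + s) / D)
    have hgD0 : (0 : ℝ) < (g : ℝ) / D := div_pos (by exact_mod_cast hg) (by exact_mod_cast hD)
    have hwim : ∀ t : ℝ, (((g : ℂ) * (t * Complex.I) + s) / D).im = (g : ℝ) / D * t := fun t => by
      rw [show (D : ℂ) = ((D : ℝ) : ℂ) from by norm_cast, Complex.div_ofReal_im]
      simp
      ring
    have hwpt : ∀ {t : ℝ}, 0 < t → ((wpt t : ℍ) : ℂ) = ((g : ℂ) * (t * Complex.I) + s) / D :=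
      fun {t} ht => by
        simp only [wpt, ofComplex_apply_of_im_pos
          (show 0 < (((g : ℂ) * (t * Complex.I) + s) / D).im by rw [hwim]; positivity)]
    have hz_tend : Filter.Tendsto zpt Filter.atTop atImInfty :=
      Filter.tendsto_comap_iff.mpr <| Filter.tendsto_id.congr' <| by
        filter_upwards [Filter.eventually_gt_atTop 0] with t ht
        simp [← UpperHalfPlane.coe_im, hzpt ht]
    have hw_tend : Filter.Tendsto wpt Filter.atTop atImInfty :=
      Filter.tendsto_comap_iff.mpr <| (Filter.tendsto_id.const_mul_atTop hgD0).congr' <| by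
        filter_upwards [Filter.eventually_gt_atTop 0] with t ht
        simp only [Function.comp_apply, ← UpperHalfPlane.coe_im, hwpt ht, hwim, id]
    have hLz := (tendsto_div_qParam.comp hz_tend).norm
    have hLw := (tendsto_div_qParam.comp hw_tend).norm
    have hratio : Filter.Tendsto (fun t : ℝ => Real.exp (k * t)) Filter.atTop
        (nhds (‖((D : ℂ) / N) ^ 12‖ * ‖(1728 : ℂ)‖ / ‖(1728 : ℂ)‖)) := by
      refine ((hLz.const_mul _).div hLw (by simp)).congr' ?_
      filter_upwards [Filter.eventually_gt_atTop 0] with t ht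
      have hw' : ((wpt t : ℍ) : ℂ) = ((g : ℂ) * (zpt t : ℍ) + (s : ℂ)) / (D : ℂ) := by
        rw [hwpt ht, hzpt ht]
      have := key (zpt t) (wpt t) hw'
      simp only [Function.comp_apply, Pi.div_apply]
      rw [this, norm_div, norm_div, norm_mul]
      have hne' : (delta1728 : ℍ → ℂ) (zpt t) ≠ 0 :=
        mul_ne_zero (by norm_num) (discriminant_ne_zero _)
      have hC : ‖((D : ℂ) / N) ^ 12‖ ≠ 0 := by
        simp [hD.ne', NeZero.ne N]
      rw [Periodic.norm_qParam, Periodic.norm_qParam, UpperHalfPlane.coe_im,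
        UpperHalfPlane.coe_im]
      have i1 : (zpt t).im = t := by simp [← UpperHalfPlane.coe_im, hzpt ht]
      have i2 : (wpt t).im = (g : ℝ) / D * t := by rw [← UpperHalfPlane.coe_im, hwpt ht, hwim]
      rw [i1, i2]
      have hn := norm_ne_zero_iff.mpr hne'
      generalize ‖((D : ℂ) / N) ^ 12‖ = C at hC ⊢
      field_simp
      rw [← Real.exp_add]
      congr 1
      simp only [k]
      field_simp
      ring
    have hCpos : 0 < ‖((D : ℂ) / N) ^ 12‖ * ‖(1728 : ℂ)‖ / ‖(1728 : ℂ)‖ := by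
      have : ((D : ℂ) / N) ≠ 0 :=
        div_ne_zero (Int.cast_ne_zero.mpr hD.ne') (Nat.cast_ne_zero.mpr (NeZero.ne N))
      have := norm_pos_iff.mpr (pow_ne_zero 12 this)
      exact div_pos (mul_pos this (by norm_num)) (by norm_num)
    rcases lt_or_gt_of_ne hk with hneg | hpos
    · have h0 : Filter.Tendsto (fun t : ℝ => Real.exp (k * t)) Filter.atTop (nhds 0) :=
        Real.tendsto_exp_atBot.comp (Filter.tendsto_id.const_mul_atTop_of_neg hneg)
      linarith [tendsto_nhds_unique hratio h0]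
    · exact not_tendsto_atTop_of_tendsto_nhds hratio
        (Real.tendsto_exp_atTop.comp (Filter.tendsto_id.const_mul_atTop hpos))
  have hgN : (g : ℤ) = N := by
    have : (g : ℤ) ^ 2 = (N : ℤ) ^ 2 := by rw [sq, ← hDg, hgD]
    nlinarith
  rw [Gamma0_mem, ← hc, ZMod.intCast_zmod_eq_zero_iff_dvd, hc', hgN]
  exact dvd_mul_right _ _

end Fermat.Agent.Hecke
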